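import Mathlib
import Fermat.Prelude.Def_FLTPrelim_Ramification

/-!
# S05 package F, part 1: unpacking decomposition and inertia subgroups
-/

set_option autoImplicit false

namespace FAUnram

open scoped Pointwise

section General

variable {K L : Type*} [Field K] [Field L] [Algebra K L] (A : ValuationSubring L)

theorem mem_of_mem_decomposition {σ : L ≃ₐ[K] L} (hσ : σ ∈ A.decompositionSubgroup K) {x : L}
    (hx : x ∈ A) : σ x ∈ A := by
  have h1 : σ • A = A := hσ
  have h2 : σ • x ∈ σ • A := ValuationSubring.smul_mem_pointwise_smul σ x A hx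
  rw [h1] at h2
  exact h2

theorem mem_iff_of_mem_decomposition {σ : L ≃ₐ[K] L} (hσ : σ ∈ A.decompositionSubgroup K) (x : L) :
    σ x ∈ A ↔ x ∈ A := by
  refine ⟨fun h => ?_, mem_of_mem_decomposition A hσ⟩
  have := mem_of_mem_decomposition A ((A.decompositionSubgroup K).inv_mem hσ) h
  simpa using this

theorem inertia_le_decomposition {σ : L ≃ₐ[K] L} (hσ : σ ∈ A.inertiaSubgroupIn K) :
    σ ∈ A.decompositionSubgroup K := by
  obtain ⟨τ, _, rfl⟩ := hσ
  exact τ.2

/-- Elements of the inertia subgroup act trivially modulo the maximal ideal. -/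
theorem inertia_spec {σ : L ≃ₐ[K] L} (hσ : σ ∈ A.inertiaSubgroupIn K) (x : L)
    (hx : A.valuation x ≤ 1) : A.valuation (σ x - x) < 1 := by
  obtain ⟨τ, hτ, rfl⟩ := hσ
  have hxA : x ∈ A := (A.valuation_le_one_iff x).mp hx
  have h1 : MulSemiringAction.toRingAut (A.decompositionSubgroup K) (IsLocalRing.ResidueField A) τ
      = 1 := hτ
  have h2 : τ • (IsLocalRing.residue A ⟨x, hxA⟩) = IsLocalRing.residue A ⟨x, hxA⟩ := by
    have := congrArg (fun f : RingAut (IsLocalRing.ResidueField A) =>
      f (IsLocalRing.residue A ⟨x, hxA⟩)) h1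
    simpa using this
  rw [← IsLocalRing.ResidueField.residue_smul, ← sub_eq_zero, ← map_sub,
    IsLocalRing.residue_eq_zero_iff, ValuationSubring.valuation_lt_one_iff] at h2
  exact h2

theorem valuation_le_iff_of_mem_decomposition {σ : L ≃ₐ[K] L}
    (hσ : σ ∈ A.decompositionSubgroup K) (x y : L) :
    A.valuation (σ x) ≤ A.valuation (σ y) ↔ A.valuation x ≤ A.valuation y := by
  rw [A.valuation_le_iff, A.valuation_le_iff]
  constructor
  · rintro ⟨a, ha⟩
    refine ⟨⟨σ.symm a, ?_⟩, ?_⟩
    · have := mem_of_mem_decomposition A ((A.decompositionSubgroup K).inv_mem hσ) a.2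
      simpa using this
    · apply σ.injective
      simpa using ha
  · rintro ⟨a, ha⟩
    exact ⟨⟨σ a, mem_of_mem_decomposition A hσ a.2⟩, by simp [← ha]⟩

theorem valuation_lt_iff_of_mem_decomposition {σ : L ≃ₐ[K] L}
    (hσ : σ ∈ A.decompositionSubgroup K) (x y : L) :
    A.valuation (σ x) < A.valuation (σ y) ↔ A.valuation x < A.valuation y := by
  rw [← not_le, ← not_le, valuation_le_iff_of_mem_decomposition A hσ]

theorem exists_pow_apply_eq [Algebra.IsAlgebraic K L] (σ : L ≃ₐ[K] L) (z : L) :
    ∃ n : ℕ, 0 < n ∧ (σ ^ n) z = z := by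
  have hz : IsIntegral K z := (Algebra.IsAlgebraic.isAlgebraic z).isIntegral
  have hmem : ∀ k : ℕ, (σ ^ k) z ∈ (minpoly K z).rootSet L := by
    intro k
    rw [Polynomial.mem_rootSet_of_ne (minpoly.ne_zero hz)]
    have := minpoly.aeval K ((σ ^ k) z)
    rwa [minpoly.algEquiv_eq] at this
  let f : ℕ → (minpoly K z).rootSet L := fun k => ⟨(σ ^ k) z, hmem k⟩
  obtain ⟨i, j, hij, hf⟩ := Finite.exists_ne_map_eq_of_infinite f
  have key : ∀ i j : ℕ, i < j → (σ ^ i) z = (σ ^ j) z → ∃ n : ℕ, 0 < n ∧ (σ ^ n) z = z := by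
    intro i j hlt h
    refine ⟨j - i, by omega, ?_⟩
    apply (σ ^ i).injective
    rw [← AlgEquiv.mul_apply, ← pow_add, show i + (j - i) = j by omega]
    exact h.symm
  have hf' : (σ ^ i) z = (σ ^ j) z := congrArg Subtype.val hf
  rcases lt_or_gt_of_ne hij with h | h
  · exact key i j h hf'
  · exact key j i h hf'.symm

/-- The decomposition group preserves the valuation (for an algebraic extension). -/
theorem valuation_apply_of_mem_decomposition [Algebra.IsAlgebraic K L] {σ : L ≃ₐ[K] L}
    (hσ : σ ∈ A.decompositionSubgroup K) (z : L) : A.valuation (σ z) = A.valuation z := by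
  obtain ⟨n, hn, hnz⟩ := exists_pow_apply_eq (K := K) σ z
  have hstep : ∀ k : ℕ, (σ ^ (k + 1)) z = σ ((σ ^ k) z) := by
    intro k
    rw [pow_succ', AlgEquiv.mul_apply]
  rcases lt_trichotomy (A.valuation (σ z)) (A.valuation z) with h | h | h
  · exfalso
    have hdec : ∀ k : ℕ, A.valuation ((σ ^ (k + 1)) z) < A.valuation ((σ ^ k) z) := by
      intro k
      induction k with
      | zero => simpa using h
      | succ k ih =>
        rw [hstep (k + 1), hstep k]
        rw [valuation_lt_iff_of_mem_decomposition A hσ]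
        rw [hstep k] at ih
        exact ih
    have hall : ∀ k : ℕ, A.valuation ((σ ^ (k + 1)) z) < A.valuation z := by
      intro k
      induction k with
      | zero => simpa using h
      | succ k ih => exact lt_trans (hdec (k + 1)) ih
    have := hall (n - 1)
    rw [show n - 1 + 1 = n by omega, hnz] at this
    exact lt_irrefl _ this
  · exact h
  · exfalso
    have hdec : ∀ k : ℕ, A.valuation ((σ ^ k) z) < A.valuation ((σ ^ (k + 1)) z) := by
      intro k
      induction k with
      | zero => simpa using h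
      | succ k ih =>
        rw [hstep (k + 1), hstep k]
        rw [valuation_lt_iff_of_mem_decomposition A hσ]
        rw [hstep k] at ih
        exact ih
    have hall : ∀ k : ℕ, A.valuation z < A.valuation ((σ ^ (k + 1)) z) := by
      intro k
      induction k with
      | zero => simpa using h
      | succ k ih => exact lt_trans ih (hdec (k + 1))
    have := hall (n - 1)
    rw [show n - 1 + 1 = n by omega, hnz] at this
    exact lt_irrefl _ this

end General

section Ints

variable {L : Type*} [Field L] (A : ValuationSubring L)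

theorem valuation_intCast_le_one (n : ℤ) : A.valuation (n : L) ≤ 1 :=
  (A.valuation_le_one_iff _).mpr (intCast_mem A n)

theorem valuation_intCast_lt_one {q : ℕ} (hA : A.LiesOverPrime q) (n : ℤ) (hn : (q : ℤ) ∣ n) :
    A.valuation (n : L) < 1 := by
  obtain ⟨m, rfl⟩ := hn
  have hq : A.valuation (q : L) < 1 := (A.mem_nonunits_iff).mp hA
  push_cast
  rw [map_mul]
  exact mul_lt_one_of_lt_of_le hq (valuation_intCast_le_one A m)

theorem valuation_intCast_eq_one {q : ℕ} (hq : q.Prime) (hA : A.LiesOverPrime q) (n : ℤ)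
    (hn : ¬ (q : ℤ) ∣ n) : A.valuation (n : L) = 1 := by
  have hcop : IsCoprime (q : ℤ) n :=
    (Prime.coprime_iff_not_dvd (Nat.prime_iff_prime_int.mp hq)).mpr hn
  obtain ⟨u, w, huw⟩ := hcop
  have h1 : (w : L) * (n : L) = 1 - (u : L) * (q : L) := by
    have := congrArg (fun z : ℤ => (z : L)) huw
    push_cast at this
    linear_combination this
  have h2 : A.valuation ((u : L) * (q : L)) < 1 := by
    have := valuation_intCast_lt_one A hA (u * q) (Dvd.intro_left u rfl)
    push_cast at this
    exact this
  have h3 : A.valuation ((w : L) * (n : L)) = 1 := by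
    rw [h1, A.valuation.map_sub_eq_of_lt_left (by rw [map_one]; exact h2), map_one]
  rw [map_mul] at h3
  refine le_antisymm (valuation_intCast_le_one A n) ?_
  by_contra hlt
  push Not at hlt
  have := mul_lt_one_of_lt_of_le hlt (valuation_intCast_le_one A w)
  rw [mul_comm, h3] at this
  exact lt_irrefl _ this

end Ints

end FAUnram
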