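import Fermat.Agent.Unram.Defs

/-!
# S05 package B: the kernel of reduction, x-only
-/

set_option autoImplicit false
set_option linter.unusedVariables false

namespace FAUnram

variable {K : Type*} [Field K] {G : Type*} [AddCommGroup G]
  {Γ₀ : Type*} [LinearOrderedCommGroupWithZero Γ₀]

theorem v_natCast_le_one (v : Valuation K Γ₀) (n : ℕ) : v (n : K) ≤ 1 := by
  induction n with
  | zero => simp
  | succ n ih =>
    rw [Nat.cast_succ]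
    exact Valuation.map_add_le v ih (by rw [map_one])

theorem v_two_le_one (v : Valuation K Γ₀) : v (2 : K) ≤ 1 := by
  have := v_natCast_le_one v 2
  simpa using this

/-- B1. `ρ = Z/X` of `P ± Q` are the roots of `F0 ρ² - F1 ρ + F2`. -/
theorem KumSys.E1_of_lt (S : KumSys G K) (v : Valuation K Γ₀) {P Q : G}
    (h1 : v (F1 S.b₂ S.b₄ S.b₆ (S.X P) (S.Z P) (S.X Q) (S.Z Q)) <
      v (F0 S.b₄ S.b₆ S.b₈ (S.X P) (S.Z P) (S.X Q) (S.Z Q)))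
    (h2 : v (F2 (S.X P) (S.Z P) (S.X Q) (S.Z Q)) <
      v (F0 S.b₄ S.b₆ S.b₈ (S.X P) (S.Z P) (S.X Q) (S.Z Q))) :
    S.E1 v (P + Q) ∧ S.E1 v (P - Q) := by
  obtain ⟨c, hc, r0, r1, r2⟩ := S.rel P Q
  unfold KumSys.E1
  generalize S.X (P + Q) = X₃ at *
  generalize S.Z (P + Q) = Z₃ at *
  generalize S.X (P - Q) = X₄ at *
  generalize S.Z (P - Q) = Z₄ at *
  generalize F0 S.b₄ S.b₆ S.b₈ (S.X P) (S.Z P) (S.X Q) (S.Z Q) = A0 at *
  generalize F1 S.b₂ S.b₄ S.b₆ (S.X P) (S.Z P) (S.X Q) (S.Z Q) = A1 at *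
  generalize F2 (S.X P) (S.Z P) (S.X Q) (S.Z Q) = A2 at *
  have hγ : 0 < v c := zero_lt_iff.2 ((Valuation.ne_zero_iff v).2 hc)
  have e0 : v X₃ * v X₄ = v c * v A0 := by rw [← map_mul, r0, map_mul]
  have e2 : v Z₃ * v Z₄ = v c * v A2 := by rw [← map_mul, r2, map_mul]
  have e1 : v (X₃ * Z₄ + X₄ * Z₃) = v c * v A1 := by rw [r1, map_mul]
  have hA0 : 0 < v A0 := lt_of_le_of_lt zero_le h1
  have hxx : 0 < v X₃ * v X₄ := by rw [e0]; exact mul_pos hγ hA0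
  have hx3 : 0 < v X₃ := pos_of_mul_pos_left hxx zero_le
  have hx4 : 0 < v X₄ := pos_of_mul_pos_right hxx zero_le
  have k2 : v Z₃ * v Z₄ < v X₃ * v X₄ := by
    rw [e0, e2]; exact mul_lt_mul_of_pos_left h2 hγ
  have k1 : v (X₃ * Z₄ + X₄ * Z₃) < v X₃ * v X₄ := by
    rw [e0, e1]; exact mul_lt_mul_of_pos_left h1 hγ
  constructor
  · by_contra hcon
    rw [not_lt] at hcon
    have hz3 : 0 < v Z₃ := hx3.trans_le hcon
    have hz4 : v Z₄ < v X₄ := by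
      have : v Z₃ * v Z₄ < v Z₃ * v X₄ := k2.trans_le (by gcongr)
      exact lt_of_mul_lt_mul_left this zero_le
    have hlt : v (X₃ * Z₄) < v (X₄ * Z₃) := by
      rw [map_mul, map_mul]
      calc v X₃ * v Z₄ ≤ v Z₃ * v Z₄ := by gcongr
        _ < v Z₃ * v X₄ := mul_lt_mul_of_pos_left hz4 hz3
        _ = v X₄ * v Z₃ := mul_comm _ _
    rw [Valuation.map_add_eq_of_lt_right v hlt, map_mul] at k1
    have : v X₃ * v X₄ ≤ v X₄ * v Z₃ := by rw [mul_comm]; gcongr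
    exact absurd k1 (not_lt.2 this)
  · by_contra hcon
    rw [not_lt] at hcon
    have hz4 : 0 < v Z₄ := hx4.trans_le hcon
    have hz3 : v Z₃ < v X₃ := by
      have : v Z₃ * v Z₄ < v X₃ * v Z₄ := k2.trans_le (by gcongr)
      exact lt_of_mul_lt_mul_right this zero_le
    have hlt : v (X₄ * Z₃) < v (X₃ * Z₄) := by
      rw [map_mul, map_mul]
      calc v X₄ * v Z₃ ≤ v Z₄ * v Z₃ := by gcongr
        _ < v Z₄ * v X₃ := mul_lt_mul_of_pos_left hz3 hz4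
        _ = v X₃ * v Z₄ := mul_comm _ _
    rw [Valuation.map_add_eq_of_lt_left v hlt, map_mul] at k1
    have : v X₃ * v X₄ ≤ v X₃ * v Z₄ := by gcongr
    exact absurd k1 (not_lt.2 this)

theorem F0_scale (b₄ b₆ b₈ : K) {X₁ Z₁ X₂ Z₂ : K} (h1 : X₁ ≠ 0) (h2 : X₂ ≠ 0) :
    F0 b₄ b₆ b₈ X₁ Z₁ X₂ Z₂ = (X₁ * X₂) ^ 2 * F0 b₄ b₆ b₈ 1 (Z₁ / X₁) 1 (Z₂ / X₂) := by
  unfold F0; field_simp

theorem F1_scale (b₂ b₄ b₆ : K) {X₁ Z₁ X₂ Z₂ : K} (h1 : X₁ ≠ 0) (h2 : X₂ ≠ 0) :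
    F1 b₂ b₄ b₆ X₁ Z₁ X₂ Z₂ = (X₁ * X₂) ^ 2 * F1 b₂ b₄ b₆ 1 (Z₁ / X₁) 1 (Z₂ / X₂) := by
  unfold F1; field_simp

theorem F2_scale {X₁ Z₁ X₂ Z₂ : K} (h1 : X₁ ≠ 0) (h2 : X₂ ≠ 0) :
    F2 X₁ Z₁ X₂ Z₂ = (X₁ * X₂) ^ 2 * F2 1 (Z₁ / X₁) 1 (Z₂ / X₂) := by
  unfold F2; field_simp

section norm

variable (v : Valuation K Γ₀) {b₂ b₄ b₆ b₈ r s : K}

theorem v_F0_norm (h4 : v b₄ ≤ 1) (h6 : v b₆ ≤ 1) (h8 : v b₈ ≤ 1) (hr : v r < 1) (hs : v s < 1) :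
    v (F0 b₄ b₆ b₈ 1 s 1 r) = 1 := by
  have e : F0 b₄ b₆ b₈ 1 s 1 r = 1 - (s * r) * (b₄ + b₆ * (r + s) + b₈ * (s * r)) := by
    unfold F0; ring
  rw [e]
  apply Valuation.map_one_sub_of_lt
  rw [map_mul, map_mul]
  have hsr : v s * v r < 1 := mul_lt_one_of_nonneg_of_lt_one_left zero_le hs hr.le
  have hrs : v (r + s) ≤ 1 := Valuation.map_add_le v hr.le hs.le
  have : v (b₄ + b₆ * (r + s) + b₈ * (s * r)) ≤ 1 := by
    refine Valuation.map_add_le v (Valuation.map_add_le v h4 ?_) ?_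
    · rw [map_mul]; exact mul_le_one' h6 hrs
    · rw [map_mul, map_mul]; exact mul_le_one' h8 hsr.le
  calc v s * v r * v (b₄ + b₆ * (r + s) + b₈ * (s * r)) ≤ v s * v r * 1 := by gcongr
    _ = v s * v r := mul_one _
    _ < 1 := hsr

theorem v_F1_norm_sub (h2 : v b₂ ≤ 1) (h4 : v b₄ ≤ 1) (h6 : v b₆ ≤ 1) (h8 : v b₈ ≤ 1)
    (hr : v r < 1) (hs : v s < 1) :
    v (F1 b₂ b₄ b₆ 1 s 1 r - 2 * (r + s) * F0 b₄ b₆ b₈ 1 s 1 r) ≤ v s * v r := by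
  have e : F1 b₂ b₄ b₆ 1 s 1 r - 2 * (r + s) * F0 b₄ b₆ b₈ 1 s 1 r =
      (s * r) * (b₂ + b₄ * (r + s) + b₆ * (s * r) +
        2 * (r + s) * (b₄ + b₆ * (r + s) + b₈ * (s * r))) := by
    unfold F0 F1; ring
  rw [e, map_mul, map_mul]
  have hsr : v s * v r < 1 := mul_lt_one_of_nonneg_of_lt_one_left zero_le hs hr.le
  have hrs : v (r + s) ≤ 1 := Valuation.map_add_le v hr.le hs.le
  have h' : v (b₄ + b₆ * (r + s) + b₈ * (s * r)) ≤ 1 := by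
    refine Valuation.map_add_le v (Valuation.map_add_le v h4 ?_) ?_
    · rw [map_mul]; exact mul_le_one' h6 hrs
    · rw [map_mul, map_mul]; exact mul_le_one' h8 hsr.le
  have : v (b₂ + b₄ * (r + s) + b₆ * (s * r) +
        2 * (r + s) * (b₄ + b₆ * (r + s) + b₈ * (s * r))) ≤ 1 := by
    refine Valuation.map_add_le v (Valuation.map_add_le v (Valuation.map_add_le v h2 ?_) ?_) ?_
    · rw [map_mul]; exact mul_le_one' h4 hrs
    · rw [map_mul, map_mul]; exact mul_le_one' h6 hsr.le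
    · rw [map_mul, map_mul]; exact mul_le_one' (mul_le_one' (v_two_le_one v) hrs) h'
  calc v s * v r * _ ≤ v s * v r * 1 := by gcongr
    _ = _ := mul_one _

theorem v_F1_norm (h2 : v b₂ ≤ 1) (h4 : v b₄ ≤ 1) (h6 : v b₆ ≤ 1) (h8 : v b₈ ≤ 1)
    (hr : v r < 1) (hs : v s < 1) : v (F1 b₂ b₄ b₆ 1 s 1 r) < 1 := by
  have e : F1 b₂ b₄ b₆ 1 s 1 r = (F1 b₂ b₄ b₆ 1 s 1 r - 2 * (r + s) * F0 b₄ b₆ b₈ 1 s 1 r) +
      2 * (r + s) * F0 b₄ b₆ b₈ 1 s 1 r := by ring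
  rw [e]
  refine Valuation.map_add_lt v ?_ ?_
  · exact (v_F1_norm_sub v h2 h4 h6 h8 hr hs).trans_lt
      (mul_lt_one_of_nonneg_of_lt_one_left zero_le hs hr.le)
  · rw [map_mul, map_mul, v_F0_norm v h4 h6 h8 hr hs, mul_one]
    calc v 2 * v (r + s) ≤ 1 * v (r + s) := by gcongr; exact v_two_le_one v
      _ = v (r + s) := one_mul _
      _ < 1 := Valuation.map_add_lt v hr hs

theorem v_F2_norm (hr : v r < 1) (hs : v s < 1) : v (F2 1 s 1 r) < 1 := by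
  have e : F2 1 s 1 r = (r - s) * (r - s) := by unfold F2; ring
  have h : v (r - s) < 1 := Valuation.map_sub_lt v hr hs
  rw [e, map_mul]
  exact mul_lt_one_of_nonneg_of_lt_one_left zero_le h h.le

end norm

theorem KumSys.E1.X_ne {S : KumSys G K} {v : Valuation K Γ₀} {P : G} (h : S.E1 v P) :
    S.X P ≠ 0 := by
  intro h0
  rw [KumSys.E1, h0, map_zero] at h
  exact absurd h (not_lt.2 zero_le)

theorem KumSys.E1.v_div {S : KumSys G K} {v : Valuation K Γ₀} {P : G} (h : S.E1 v P) :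
    v (S.Z P / S.X P) < 1 := by
  have hx : 0 < v (S.X P) := lt_of_le_of_lt zero_le h
  rw [map_div₀, div_lt_one₀ hx]
  exact h

/-- B2. -/
theorem KumSys.E1_add_sub (S : KumSys G K) (v : Valuation K Γ₀) (hS : S.IsInt v) {P Q : G}
    (hP : S.E1 v P) (hQ : S.E1 v Q) : S.E1 v (P + Q) ∧ S.E1 v (P - Q) := by
  obtain ⟨h2, h4, h6, h8⟩ := hS
  have hxx : 0 < v ((S.X P * S.X Q) ^ 2) :=
    zero_lt_iff.2 ((Valuation.ne_zero_iff v).2 (pow_ne_zero _ (mul_ne_zero hP.X_ne hQ.X_ne)))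
  apply S.E1_of_lt v
  · rw [F0_scale _ _ _ hP.X_ne hQ.X_ne, F1_scale _ _ _ hP.X_ne hQ.X_ne, map_mul, map_mul,
      v_F0_norm v h4 h6 h8 hQ.v_div hP.v_div]
    exact mul_lt_mul_of_pos_left (v_F1_norm v h2 h4 h6 h8 hQ.v_div hP.v_div) hxx
  · rw [F0_scale _ _ _ hP.X_ne hQ.X_ne, F2_scale hP.X_ne hQ.X_ne, map_mul, map_mul,
      v_F0_norm v h4 h6 h8 hQ.v_div hP.v_div]
    exact mul_lt_mul_of_pos_left (v_F2_norm v hQ.v_div hP.v_div) hxx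

theorem KumSys.rho_add (S : KumSys G K) (v : Valuation K Γ₀) (hS : S.IsInt v) {P Q : G}
    (hP : S.E1 v P) (hQ : S.E1 v Q) :
    S.Z (P + Q) / S.X (P + Q) + S.Z (P - Q) / S.X (P - Q) =
      F1 S.b₂ S.b₄ S.b₆ 1 (S.Z P / S.X P) 1 (S.Z Q / S.X Q) /
        F0 S.b₄ S.b₆ S.b₈ 1 (S.Z P / S.X P) 1 (S.Z Q / S.X Q) := by
  obtain ⟨h3, h4⟩ := S.E1_add_sub v hS hP hQ
  obtain ⟨c, hc, r0, r1, -⟩ := S.rel P Q
  have hx3 := h3.X_ne
  have hx4 := h4.X_ne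
  have hxx : (S.X P * S.X Q) ^ 2 ≠ 0 := pow_ne_zero _ (mul_ne_zero hP.X_ne hQ.X_ne)
  rw [F0_scale _ _ _ hP.X_ne hQ.X_ne] at r0
  rw [F1_scale _ _ _ hP.X_ne hQ.X_ne] at r1
  have hF0 : F0 S.b₄ S.b₆ S.b₈ 1 (S.Z P / S.X P) 1 (S.Z Q / S.X Q) ≠ 0 := by
    intro h0
    rw [h0, mul_zero, mul_zero] at r0
    exact mul_ne_zero hx3 hx4 r0
  rw [div_add_div _ _ hx3 hx4, div_eq_div_iff (mul_ne_zero hx3 hx4) hF0, r0]
  have : S.Z (P + Q) * S.X (P - Q) + S.X (P + Q) * S.Z (P - Q) =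
      S.X (P + Q) * S.Z (P - Q) + S.X (P - Q) * S.Z (P + Q) := by ring
  rw [this, r1]
  ring

/-- B3.  With `ρ_k = Z(kP)/X(kP)`: `ρ_k - k² ρ_1 ∈ ρ_1² A` by the two-step induction
`ρ_{k+1} + ρ_{k-1} = F1/F0 ≡ 2 (ρ_k + ρ_1)`. -/
theorem KumSys.rho_nsmul (S : KumSys G K) (v : Valuation K Γ₀) (hS : S.IsInt v)
    {P : G} (hP : S.E1 v P) (k : ℕ) :
    (S.E1 v (k • P) ∧
      v (S.Z (k • P) / S.X (k • P) - (k : K) ^ 2 * (S.Z P / S.X P)) ≤ v (S.Z P / S.X P) ^ 2) ∧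
    (S.E1 v ((k + 1) • P) ∧
      v (S.Z ((k + 1) • P) / S.X ((k + 1) • P) - ((k + 1 : ℕ) : K) ^ 2 * (S.Z P / S.X P)) ≤
        v (S.Z P / S.X P) ^ 2) := by
  induction k with
  | zero =>
    refine ⟨⟨?_, ?_⟩, ⟨?_, ?_⟩⟩
    · rw [zero_smul, KumSys.E1, S.Z_zero, S.X_zero, map_zero, map_one]; exact zero_lt_one
    · rw [zero_smul, S.Z_zero]; simp
    · rw [zero_add, one_smul]; exact hP
    · rw [zero_add, one_smul]; simp
  | succ k ih =>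
    refine ⟨ih.2, ?_⟩
    obtain ⟨⟨hk, hkv⟩, ⟨hk1, hk1v⟩⟩ := ih
    have e1 : (k + 1) • P + P = (k + 1 + 1) • P := by rw [add_smul (k + 1) 1 P, one_smul]
    have e2 : (k + 1) • P - P = k • P := by rw [add_smul k 1 P, one_smul, add_sub_cancel_right]
    have hadd := S.E1_add_sub v hS hk1 hP
    have hrho := S.rho_add v hS hk1 hP
    rw [e1] at hadd
    rw [e1, e2] at hrho
    refine ⟨hadd.1, ?_⟩
    obtain ⟨h2, h4, h6, h8⟩ := hS
    have hr := hP.v_div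
    have hs := hk1.v_div
    generalize S.Z P / S.X P = r at *
    generalize S.Z ((k + 1) • P) / S.X ((k + 1) • P) = s at *
    generalize S.Z (k • P) / S.X (k • P) = t at *
    generalize S.Z ((k + 1 + 1) • P) / S.X ((k + 1 + 1) • P) = u at *
    have hG0 := v_F0_norm v h4 h6 h8 hr hs
    have hG1 := v_F1_norm_sub v h2 h4 h6 h8 hr hs
    have hG0ne : F0 S.b₄ S.b₆ S.b₈ 1 s 1 r ≠ 0 := by
      intro h0; rw [h0, map_zero] at hG0; exact zero_ne_one hG0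
    have hsr : v s ≤ v r := by
      have : s = (s - ((k + 1 : ℕ) : K) ^ 2 * r) + ((k + 1 : ℕ) : K) ^ 2 * r := by ring
      rw [this]
      refine Valuation.map_add_le v ?_ ?_
      · refine hk1v.trans ?_
        rw [sq]
        calc v r * v r ≤ 1 * v r := by gcongr
          _ = v r := one_mul _
      · rw [map_mul, map_pow]
        calc v ((k + 1 : ℕ) : K) ^ 2 * v r ≤ 1 * v r := by
              gcongr
              exact pow_le_one' (v_natCast_le_one v _) 2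
          _ = v r := one_mul _
    have hmain : u - ((k + 1 + 1 : ℕ) : K) ^ 2 * r =
        (F1 S.b₂ S.b₄ S.b₆ 1 s 1 r - 2 * (r + s) * F0 S.b₄ S.b₆ S.b₈ 1 s 1 r) /
          F0 S.b₄ S.b₆ S.b₈ 1 s 1 r + 2 * (s - ((k + 1 : ℕ) : K) ^ 2 * r) - (t - (k : K) ^ 2 * r) := by
      have hu : u = F1 S.b₂ S.b₄ S.b₆ 1 s 1 r / F0 S.b₄ S.b₆ S.b₈ 1 s 1 r - t :=
        eq_sub_of_add_eq hrho
      rw [hu, sub_div, mul_div_assoc, div_self hG0ne]
      push_cast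
      ring
    rw [hmain]
    refine Valuation.map_sub_le v (Valuation.map_add_le v ?_ ?_) hkv
    · rw [map_div₀, hG0, div_one, sq]
      refine hG1.trans ?_
      gcongr
    · rw [map_mul]
      calc v 2 * v (s - ((k + 1 : ℕ) : K) ^ 2 * r) ≤ 1 * v r ^ 2 := by
            gcongr
            exact v_two_le_one v
        _ = _ := one_mul _

theorem KumSys.eq_zero_of_E1_of_nsmul (S : KumSys G K) (v : Valuation K Γ₀) (hS : S.IsInt v)
    {P : G} (hP : S.E1 v P) (n : ℕ) (hn : v (n : K) = 1) (h : n • P = 0) : P = 0 := by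
  by_contra hP0
  have hZ : S.Z P = 1 := S.Z_of_ne P hP0
  have key := (S.rho_nsmul v hS hP n).1.2
  have hr := hP.v_div
  have hr0 : S.Z P / S.X P ≠ 0 := by
    rw [hZ]; exact div_ne_zero one_ne_zero hP.X_ne
  rw [h, S.Z_zero, zero_div, zero_sub, Valuation.map_neg, map_mul, map_pow, hn, one_pow, one_mul,
    sq] at key
  have hpos : 0 < v (S.Z P / S.X P) := zero_lt_iff.2 ((Valuation.ne_zero_iff v).2 hr0)
  exact absurd (mul_lt_of_lt_one_left hpos hr) (not_lt.2 key)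

end FAUnram
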