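import Fermat.Agent.Unram.Kummer
import Fermat.Agent.Unram.EOne

/-!
# S05 package C: congruent integral points with nonsingular reduction differ by `E1`
-/

set_option autoImplicit false

namespace FAUnram

open WeierstrassCurve WeierstrassCurve.Affine

variable {K : Type*} [Field K] [DecidableEq K]
  {Γ₀ : Type*} [LinearOrderedCommGroupWithZero Γ₀]

theorem close_sub_E1 (W : WeierstrassCurve.Affine K) (v : Valuation K Γ₀) (e : K) (he : v e ≤ 1)
    (h₁ : v W.a₁ ≤ 1) (h₂ : v W.a₂ ≤ 1) (h₃ : v W.a₃ ≤ 1) (h₄ : v W.a₄ ≤ 1) (h₆ : v W.a₆ ≤ 1)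
    {x y x' y' : K} (h : W.Nonsingular x y) (h' : W.Nonsingular x' y')
    (hx : v x ≤ 1) (hy : v y ≤ 1) (hxx : v (x' - x) < 1) (hyy : v (y' - y) < 1)
    (hns : v (2 * y + W.a₁ * x + W.a₃) = 1 ∨
      v (F0 (kumSys W e).b₄ (kumSys W e).b₆ (kumSys W e).b₈ (x - e) 1 (x - e) 1) = 1) :
    (kumSys W e).E1 v (Point.some x' y' h' - Point.some x y h) := by
  by_cases hη : v (2 * y + W.a₁ * x + W.a₃) = 1
  · -- slope computation
    rw [sub_eq_add_neg, Point.neg_some]
    by_cases hxe : x' = x
    · subst hxe
      rcases Y_eq_of_X_eq h'.1 h.1 rfl with hy' | hy'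
      · subst hy'
        rw [Point.add_of_Y_eq rfl (by rw [negY_negY])]
        simp [KumSys.E1, (kumSys W e).X_zero, (kumSys W e).Z_zero]
      · exfalso
        have : y' - y = -(2 * y + W.a₁ * x' + W.a₃) := by rw [hy', negY]; ring
        rw [this, Valuation.map_neg, hη] at hyy
        exact lt_irrefl _ hyy
    · rw [Point.add_of_X_ne hxe]
      simp only [KumSys.E1, kumSys_X_some, kumSys_Z_some, map_one]
      rw [slope_of_X_ne hxe]
      set l := (y' - W.negY x y) / (x' - x) with hl
      have hD : x' - x ≠ 0 := sub_ne_zero.mpr hxe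
      have hnum : v (y' - W.negY x y) = 1 := by
        have : y' - W.negY x y = (2 * y + W.a₁ * x + W.a₃) + (y' - y) := by rw [negY]; ring
        rw [this, v.map_add_eq_of_lt_left (by rw [hη]; exact hyy), hη]
      have hvl : 1 < v l := by
        rw [hl, map_div₀, hnum]
        exact (one_lt_div₀ (zero_lt_iff.mpr (v.ne_zero_iff.mpr hD))).mpr hxx
      have hx' : v x' ≤ 1 := by
        have : x' = (x' - x) + x := by ring
        rw [this]; exact v.map_add_le hxx.le hx
      have hl2 : v l < v (l ^ 2) := by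
        rw [map_pow, pow_two]
        exact lt_mul_of_one_lt_left (lt_trans zero_lt_one hvl) hvl
      have h1l2 : 1 < v (l ^ 2) := lt_trans hvl hl2
      have e1 : W.addX x' x l - e = l ^ 2 + (W.a₁ * l - W.a₂ - x' - x - e) := by
        rw [addX]; ring
      rw [e1, v.map_add_eq_of_lt_left]
      · exact h1l2
      · refine v.map_sub_lt (v.map_sub_lt (v.map_sub_lt (v.map_sub_lt ?_ ?_) ?_) ?_) ?_
        · rw [map_mul]
          calc v W.a₁ * v l ≤ 1 * v l := mul_le_mul_left h₁ _
            _ = v l := one_mul _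
            _ < _ := hl2
        · exact lt_of_le_of_lt h₂ h1l2
        · exact lt_of_le_of_lt hx' h1l2
        · exact lt_of_le_of_lt hx h1l2
        · exact lt_of_le_of_lt he h1l2
  · have hF0 := hns.resolve_left hη
    have mx : x ∈ v.integer := hx
    have my : y ∈ v.integer := hy
    have me : e ∈ v.integer := he
    have m₁ : W.a₁ ∈ v.integer := h₁
    have m₂ : W.a₂ ∈ v.integer := h₂
    have m₃ : W.a₃ ∈ v.integer := h₃
    have m₄ : W.a₄ ∈ v.integer := h₄
    have m₆ : W.a₆ ∈ v.integer := h₆
    have mx' : x' ∈ v.integer := by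
      have : x' = (x' - x) + x := by ring
      rw [this]; exact v.map_add_le hxx.le hx
    have hηlt : v (2 * y + W.a₁ * x + W.a₃) < 1 := by
      refine lt_of_le_of_ne ?_ hη
      change 2 * y + W.a₁ * x + W.a₃ ∈ v.integer
      repeat' first
        | assumption
        | apply Subring.add_mem
        | apply Subring.mul_mem
        | exact ofNat_mem _ _
    set S := kumSys W e with hS
    have mb₂ : S.b₂ ∈ v.integer := by
      change W.b₂ + 12 * e ∈ v.integer
      rw [b₂]
      repeat' first
        | assumption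
        | apply Subring.add_mem
        | apply Subring.mul_mem
        | apply Subring.pow_mem
        | exact ofNat_mem _ _
    have mb₄ : S.b₄ ∈ v.integer := by
      change W.b₄ + e * W.b₂ + 6 * e ^ 2 ∈ v.integer
      rw [b₂, b₄]
      repeat' first
        | assumption
        | apply Subring.add_mem
        | apply Subring.mul_mem
        | apply Subring.pow_mem
        | exact ofNat_mem _ _
    have mb₆ : S.b₆ ∈ v.integer := by
      change W.b₆ + 2 * e * W.b₄ + e ^ 2 * W.b₂ + 4 * e ^ 3 ∈ v.integer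
      rw [b₂, b₄, b₆]
      repeat' first
        | assumption
        | apply Subring.add_mem
        | apply Subring.mul_mem
        | apply Subring.pow_mem
        | exact ofNat_mem _ _
    have hF1 : F1 S.b₂ S.b₄ S.b₆ (x - e) 1 (x - e) 1 = (2 * y + W.a₁ * x + W.a₃) ^ 2 := by
      have heq := (W.equation_iff x y).mp h.1
      change F1 (W.b₂ + 12 * e) (W.b₄ + e * W.b₂ + 6 * e ^ 2)
        (W.b₆ + 2 * e * W.b₄ + e ^ 2 * W.b₂ + 4 * e ^ 3) (x - e) 1 (x - e) 1 = _
      rw [F1, b₂, b₄, b₆]
      linear_combination (-4 : K) * heq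
    have hF1' : v (F1 S.b₂ S.b₄ S.b₆ (x' - e) 1 (x - e) 1) < 1 := by
      have e1 : F1 S.b₂ S.b₄ S.b₆ (x' - e) 1 (x - e) 1 = F1 S.b₂ S.b₄ S.b₆ (x - e) 1 (x - e) 1
          + (x' - x) * (2 * (x - e) * ((x' - e) + 2 * (x - e)) + S.b₂ * (x - e) + S.b₄) := by
        simp only [F1]; ring
      rw [e1]
      refine v.map_add_lt ?_ ?_
      · rw [hF1, map_pow]
        exact pow_lt_one₀ zero_le hηlt two_ne_zero
      · rw [map_mul]
        refine mul_lt_one_of_lt_of_le hxx ?_
        change _ ∈ v.integer
        repeat' first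
          | assumption
          | apply Subring.add_mem
          | apply Subring.sub_mem
          | apply Subring.mul_mem
          | exact ofNat_mem _ _
    have hF0' : v (F0 S.b₄ S.b₆ S.b₈ (x' - e) 1 (x - e) 1) = 1 := by
      have e1 : F0 S.b₄ S.b₆ S.b₈ (x' - e) 1 (x - e) 1 = F0 S.b₄ S.b₆ S.b₈ (x - e) 1 (x - e) 1
          + (x' - x) * ((x - e) ^ 2 * ((x' - e) + (x - e)) - S.b₄ * (x - e) - S.b₆) := by
        simp only [F0]; ring
      rw [e1, v.map_add_eq_of_lt_left, hF0]
      rw [hF0, map_mul]
      refine mul_lt_one_of_lt_of_le hxx ?_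
      change _ ∈ v.integer
      repeat' first
        | assumption
        | apply Subring.add_mem
        | apply Subring.sub_mem
        | apply Subring.mul_mem
        | apply Subring.pow_mem
    have hF2' : v (F2 (x' - e) 1 (x - e) 1) < 1 := by
      have e1 : F2 (x' - e) 1 (x - e) 1 = (x' - x) ^ 2 := by simp only [F2]; ring
      rw [e1, map_pow]
      exact pow_lt_one₀ zero_le hxx two_ne_zero
    refine (S.E1_of_lt v (P := Point.some x' y' h') (Q := Point.some x y h) ?_ ?_).2
    · rw [hS, kumSys_X_some, kumSys_X_some, kumSys_Z_some, kumSys_Z_some, ← hS, hF0']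
      exact hF1'
    · rw [hS, kumSys_X_some, kumSys_X_some, kumSys_Z_some, kumSys_Z_some, ← hS, hF0']
      exact hF2'

end FAUnram
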