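import Fermat.Agent.Unram.Defs

/-!
# S05 package D: the component group of a nodal Kummer system, x-only
-/


set_option autoImplicit false
set_option linter.unusedTactic false
set_option linter.unusedVariables false

namespace FAUnram

variable {K : Type*} [Field K] {Γ₀ : Type*} [LinearOrderedCommGroupWithZero Γ₀]

theorem np_distinct (v : Valuation K Γ₀) {X₃ Z₃ X₄ Z₄ c A0 A1 A2 : K} (hc : c ≠ 0)
    (h0 : X₃ * X₄ = c * A0) (h1 : X₃ * Z₄ + X₄ * Z₃ = c * A1) (h2 : Z₃ * Z₄ = c * A2)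
    (hlt : v A0 * v A2 < v A1 ^ 2) :
    (v X₃ * v A2 = v Z₃ * v A1 ∧ v X₄ * v A1 = v Z₄ * v A0) ∨
    (v X₄ * v A2 = v Z₄ * v A1 ∧ v X₃ * v A1 = v Z₃ * v A0) := by
  have hγ : v c ≠ 0 := (Valuation.ne_zero_iff v).2 hc
  have e0 : v X₃ * v X₄ = v c * v A0 := by rw [← map_mul, h0, map_mul]
  have e2 : v Z₃ * v Z₄ = v c * v A2 := by rw [← map_mul, h2, map_mul]
  have e1 : v (X₃ * Z₄ + X₄ * Z₃) = v c * v A1 := by rw [h1, map_mul]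
  have hprod : (v X₃ * v Z₄) * (v X₄ * v Z₃) < (v c * v A1) ^ 2 := by
    have : (v X₃ * v Z₄) * (v X₄ * v Z₃) = v c ^ 2 * (v A0 * v A2) := by
      calc (v X₃ * v Z₄) * (v X₄ * v Z₃) = (v X₃ * v X₄) * (v Z₃ * v Z₄) := by (try simp only [sq]); ac_rfl
        _ = _ := by rw [e0, e2]; (try simp only [sq]); ac_rfl
    rw [this, mul_pow]
    exact mul_lt_mul_of_pos_left hlt (pow_pos (zero_lt_iff.2 hγ) 2)
  rcases lt_trichotomy (v X₃ * v Z₄) (v X₄ * v Z₃) with hlt' | heq | hgt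
  · right
    have hs : v c * v A1 = v X₄ * v Z₃ := by
      rw [← e1, ← map_mul v X₄ Z₃]
      apply Valuation.map_add_eq_of_lt_right
      simpa using hlt'
    constructor
    · apply mul_left_cancel₀ hγ
      calc v c * (v X₄ * v A2) = v X₄ * (v c * v A2) := by (try simp only [sq]); ac_rfl
        _ = v X₄ * (v Z₃ * v Z₄) := by rw [e2]
        _ = (v X₄ * v Z₃) * v Z₄ := by (try simp only [sq]); ac_rfl
        _ = _ := by rw [← hs]; (try simp only [sq]); ac_rfl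
    · apply mul_left_cancel₀ hγ
      calc v c * (v X₃ * v A1) = v X₃ * (v c * v A1) := by (try simp only [sq]); ac_rfl
        _ = v X₃ * (v X₄ * v Z₃) := by rw [hs]
        _ = (v X₃ * v X₄) * v Z₃ := by (try simp only [sq]); ac_rfl
        _ = _ := by rw [e0]; (try simp only [sq]); ac_rfl
  · exfalso
    have hle : v c * v A1 ≤ v X₃ * v Z₄ := by
      rw [← e1]
      refine (Valuation.map_add v _ _).trans ?_
      rw [map_mul, map_mul, ← heq, max_self]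
    have : (v c * v A1) ^ 2 ≤ (v X₃ * v Z₄) * (v X₄ * v Z₃) := by
      rw [← heq, sq]
      exact mul_le_mul' hle hle
    exact absurd hprod (not_lt.2 this)
  · left
    have hs : v c * v A1 = v X₃ * v Z₄ := by
      rw [← e1, ← map_mul v X₃ Z₄]
      apply Valuation.map_add_eq_of_lt_left
      simpa using hgt
    constructor
    · apply mul_left_cancel₀ hγ
      calc v c * (v X₃ * v A2) = v X₃ * (v c * v A2) := by (try simp only [sq]); ac_rfl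
        _ = v X₃ * (v Z₃ * v Z₄) := by rw [e2]
        _ = (v X₃ * v Z₄) * v Z₃ := by (try simp only [sq]); ac_rfl
        _ = _ := by rw [← hs]; (try simp only [sq]); ac_rfl
    · apply mul_left_cancel₀ hγ
      calc v c * (v X₄ * v A1) = v X₄ * (v c * v A1) := by (try simp only [sq]); ac_rfl
        _ = v X₄ * (v X₃ * v Z₄) := by rw [hs]
        _ = (v X₃ * v X₄) * v Z₄ := by (try simp only [sq]); ac_rfl
        _ = _ := by rw [e0]; (try simp only [sq]); ac_rfl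

theorem np_equal (v : Valuation K Γ₀) {X₃ Z₃ X₄ Z₄ c A0 A1 A2 : K} (hc : c ≠ 0)
    (h0 : X₃ * X₄ = c * A0) (h1 : X₃ * Z₄ + X₄ * Z₃ = c * A1) (h2 : Z₃ * Z₄ = c * A2)
    (hle : v A1 ^ 2 ≤ v A0 * v A2) :
    v X₃ ^ 2 * v A2 = v Z₃ ^ 2 * v A0 ∧ v X₄ ^ 2 * v A2 = v Z₄ ^ 2 * v A0 := by
  have hγ : v c ≠ 0 := (Valuation.ne_zero_iff v).2 hc
  have e0 : v X₃ * v X₄ = v c * v A0 := by rw [← map_mul, h0, map_mul]
  have e2 : v Z₃ * v Z₄ = v c * v A2 := by rw [← map_mul, h2, map_mul]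
  have e1 : v (X₃ * Z₄ + X₄ * Z₃) = v c * v A1 := by rw [h1, map_mul]
  have hprod : (v c * v A1) ^ 2 ≤ (v X₃ * v Z₄) * (v X₄ * v Z₃) := by
    have : (v X₃ * v Z₄) * (v X₄ * v Z₃) = v c ^ 2 * (v A0 * v A2) := by
      calc (v X₃ * v Z₄) * (v X₄ * v Z₃) = (v X₃ * v X₄) * (v Z₃ * v Z₄) := by (try simp only [sq]); ac_rfl
        _ = _ := by rw [e0, e2]; (try simp only [sq]); ac_rfl
    rw [this, mul_pow]
    exact mul_le_mul_right hle _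
  have heq : v X₃ * v Z₄ = v X₄ * v Z₃ := by
    rcases lt_trichotomy (v X₃ * v Z₄) (v X₄ * v Z₃) with hlt' | heq | hgt
    · exfalso
      have hs : v c * v A1 = v X₄ * v Z₃ := by
        rw [← e1, ← map_mul v X₄ Z₃]
        apply Valuation.map_add_eq_of_lt_right
        simpa using hlt'
      rw [hs, sq] at hprod
      have hpos : 0 < v X₄ * v Z₃ := lt_of_le_of_lt zero_le hlt'
      exact absurd (mul_lt_mul_of_pos_right hlt' hpos) (not_lt.2 hprod)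
    · exact heq
    · exfalso
      have hs : v c * v A1 = v X₃ * v Z₄ := by
        rw [← e1, ← map_mul v X₃ Z₄]
        apply Valuation.map_add_eq_of_lt_left
        simpa using hgt
      rw [hs, sq] at hprod
      have hpos : 0 < v X₃ * v Z₄ := lt_of_le_of_lt zero_le hgt
      exact absurd (mul_lt_mul_of_pos_left hgt hpos) (not_lt.2 hprod)
  constructor
  · apply mul_left_cancel₀ hγ
    calc v c * (v X₃ ^ 2 * v A2) = v X₃ ^ 2 * (v c * v A2) := by (try simp only [sq]); ac_rfl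
      _ = v X₃ ^ 2 * (v Z₃ * v Z₄) := by rw [e2]
      _ = v X₃ * v Z₃ * (v X₃ * v Z₄) := by (try simp only [sq]); ac_rfl
      _ = v X₃ * v Z₃ * (v X₄ * v Z₃) := by rw [heq]
      _ = (v X₃ * v X₄) * v Z₃ ^ 2 := by (try simp only [sq]); ac_rfl
      _ = _ := by rw [e0]; (try simp only [sq]); ac_rfl
  · apply mul_left_cancel₀ hγ
    calc v c * (v X₄ ^ 2 * v A2) = v X₄ ^ 2 * (v c * v A2) := by (try simp only [sq]); ac_rfl
      _ = v X₄ ^ 2 * (v Z₃ * v Z₄) := by rw [e2]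
      _ = v X₄ * v Z₄ * (v X₄ * v Z₃) := by (try simp only [sq]); ac_rfl
      _ = v X₄ * v Z₄ * (v X₃ * v Z₄) := by rw [heq]
      _ = (v X₃ * v X₄) * v Z₄ ^ 2 := by (try simp only [sq]); ac_rfl
      _ = _ := by rw [e0]; (try simp only [sq]); ac_rfl

theorem np_lt (v : Valuation K Γ₀) {X₃ Z₃ X₄ Z₄ c a0 A1 a2 : K} (hc : c ≠ 0)
    (h0 : X₃ * X₄ = c * a0 ^ 2) (h1 : X₃ * Z₄ + X₄ * Z₃ = c * A1) (h2 : Z₃ * Z₄ = c * a2 ^ 2)
    (hlt : v a0 * v a2 < v A1) :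
    (v X₃ * v a2 ^ 2 = v Z₃ * v A1 ∧ v X₄ * v A1 = v Z₄ * v a0 ^ 2) ∨
    (v X₄ * v a2 ^ 2 = v Z₄ * v A1 ∧ v X₃ * v A1 = v Z₃ * v a0 ^ 2) := by
  have := np_distinct v hc h0 h1 h2 (by
    rw [map_pow, map_pow, ← mul_pow]
    exact pow_lt_pow_left₀ hlt zero_le (by norm_num))
  simpa only [map_pow] using this

theorem np_le (v : Valuation K Γ₀) {X₃ Z₃ X₄ Z₄ c a0 A1 a2 : K} (hc : c ≠ 0)
    (h0 : X₃ * X₄ = c * a0 ^ 2) (h1 : X₃ * Z₄ + X₄ * Z₃ = c * A1) (h2 : Z₃ * Z₄ = c * a2 ^ 2)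
    (hle : v A1 ≤ v a0 * v a2) :
    v X₃ * v a2 = v Z₃ * v a0 ∧ v X₄ * v a2 = v Z₄ * v a0 := by
  have := np_equal v hc h0 h1 h2 (by
    rw [map_pow, map_pow, ← mul_pow]
    exact pow_le_pow_left₀ zero_le hle 2)
  simp only [map_pow, ← mul_pow] at this
  exact ⟨(pow_left_inj₀ zero_le zero_le (by norm_num)).1 this.1,
    (pow_left_inj₀ zero_le zero_le (by norm_num)).1 this.2⟩

/-- normalised projective coordinates. -/
def Nrm (X Z : K) : Prop := (Z = 0 ∧ X = 1) ∨ Z = 1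

/-- the clamped valuation of `X / Z`. -/
noncomputable def Dv (v : Valuation K Γ₀) (N : Γ₀) (X Z : K) : Γ₀ :=
  open Classical in if Z = 0 then 1 else max N (min 1 (v X))

theorem Dv_eq_one (v : Valuation K Γ₀) {N : Γ₀} (hN : N < 1) {X Z : K} (h : Nrm X Z) {α β : Γ₀}
    (hβ : β ≠ 0) (hαβ : α ≤ β) (e : v X * α = v Z * β) : Dv v N X Z = 1 := by
  rcases h with ⟨hZ, -⟩ | hZ
  · simp [Dv, hZ]
  · have h1 : (1 : Γ₀) ≤ v X := by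
      by_contra hlt
      rw [not_le] at hlt
      rw [hZ, map_one, one_mul] at e
      have hα : α ≠ 0 := by
        rintro rfl
        exact hβ (by rw [← e, mul_zero])
      have : v X * α < α := mul_lt_of_lt_one_left (zero_lt_iff.2 hα) hlt
      exact absurd (this.trans_le hαβ) (by rw [e]; exact lt_irrefl _)
    simp [Dv, hZ, min_eq_left h1, max_eq_right hN.le]

theorem Dv_eq_mid (v : Valuation K Γ₀) {N : Γ₀} {X Z : K} (h : Nrm X Z) {α β : Γ₀}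
    (h1 : N * α < β) (h2 : β < α) (e : v X * α = v Z * β) : Dv v N X Z * α = β := by
  have hα : 0 < α := lt_of_le_of_lt zero_le h2
  rcases h with ⟨hZ, hX⟩ | hZ
  · rw [hZ, hX, map_one, map_zero, one_mul, zero_mul] at e
    exact absurd e hα.ne'
  · rw [hZ, map_one, one_mul] at e
    have hx1 : v X < 1 := by
      by_contra hge
      rw [not_lt] at hge
      have : α ≤ v X * α := le_mul_of_one_le_left zero_le hge
      exact absurd (this.trans_lt (e ▸ h2)) (lt_irrefl _)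
    have hxN : N < v X := by
      rw [← e] at h1
      exact lt_of_mul_lt_mul_right h1 zero_le
    simp [Dv, hZ, min_eq_right hx1.le, max_eq_right hxN.le, e]

theorem Dv_eq_N (v : Valuation K Γ₀) {N : Γ₀} (hN : N < 1) {X Z : K} (h : Nrm X Z) {α β : Γ₀}
    (hα : α ≠ 0) (h1 : β ≤ N * α) (e : v X * α = v Z * β) : Dv v N X Z = N := by
  rcases h with ⟨hZ, hX⟩ | hZ
  · rw [hZ, hX, map_one, map_zero, one_mul, zero_mul] at e
    exact absurd e hα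
  · rw [hZ, map_one, one_mul] at e
    have hxN : v X ≤ N := by
      rw [← e] at h1
      exact le_of_mul_le_mul_right h1 (zero_lt_iff.2 hα)
    simp [Dv, hZ, min_eq_right (hxN.trans hN.le), max_eq_left hxN]

section cases

variable (v : Valuation K Γ₀) {a b : K}

theorem v4_of_v2 (v2 : v (2 : K) = 1) : v (4 : K) = 1 := by
  rw [show (4 : K) = 2 * 2 by norm_num, map_mul, v2, one_mul]

/-- `T × Mid`. -/
theorem case_TM (va : v a = 1) (v2 : v (2 : K) = 1) (vb : v b < 1) (b0 : b ≠ 0)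
    {ξ₁ ξ₂ X₃ Z₃ X₄ Z₄ c : K} (n3 : Nrm X₃ Z₃) (n4 : Nrm X₄ Z₄) (hc : c ≠ 0)
    (h1 : v ξ₁ ≤ v b) (h2 : v b < v ξ₂) (h2' : v ξ₂ < 1)
    (r0 : X₃ * X₄ = c * (ξ₁ * ξ₂ - b) ^ 2)
    (r1 : X₃ * Z₄ + X₄ * Z₃ =
      c * (2 * (ξ₁ + ξ₂) * (ξ₁ * ξ₂) + 4 * a * (ξ₁ * ξ₂) + 2 * b * (ξ₁ + ξ₂)))
    (r2 : Z₃ * Z₄ = c * (ξ₁ - ξ₂) ^ 2) :
    Dv v (v b) X₃ Z₃ * v ξ₂ = v b ∧ Dv v (v b) X₄ Z₄ * v ξ₂ = v b := by
  have hN0 : 0 < v b := zero_lt_iff.2 ((Valuation.ne_zero_iff v).2 b0)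
  have v4 := v4_of_v2 v v2
  have hprod : v (ξ₁ * ξ₂) ≤ v b * v ξ₂ := by rw [map_mul]; gcongr
  have hNh : v b * v ξ₂ < v b := mul_lt_of_lt_one_right hN0 h2'
  have ea0 : v (ξ₁ * ξ₂ - b) = v b :=
    Valuation.map_sub_eq_of_lt_right v (hprod.trans_lt hNh)
  have ea2 : v (ξ₁ - ξ₂) = v ξ₂ := Valuation.map_sub_eq_of_lt_right v (h1.trans_lt h2)
  have hsum : v (ξ₁ + ξ₂) ≤ v ξ₂ := Valuation.map_add_le v (h1.trans h2.le) le_rfl
  have hA1 : v (2 * (ξ₁ + ξ₂) * (ξ₁ * ξ₂) + 4 * a * (ξ₁ * ξ₂) + 2 * b * (ξ₁ + ξ₂)) ≤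
      v b * v ξ₂ := by
    refine Valuation.map_add_le v (Valuation.map_add_le v ?_ ?_) ?_
    · rw [map_mul, map_mul, v2, one_mul]
      calc v (ξ₁ + ξ₂) * v (ξ₁ * ξ₂) ≤ 1 * (v b * v ξ₂) := by
            gcongr
            exact hsum.trans h2'.le
        _ = _ := one_mul _
    · rw [map_mul, map_mul, v4, va, one_mul, one_mul]
      exact hprod
    · rw [map_mul, map_mul, v2, one_mul]
      gcongr
  obtain ⟨e3, e4⟩ := np_le v hc r0 r1 r2 (by rw [ea0, ea2]; exact hA1)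
  rw [ea0, ea2] at e3 e4
  exact ⟨Dv_eq_mid v n3 hNh h2 e3, Dv_eq_mid v n4 hNh h2 e4⟩

/-- `T × T`. -/
theorem case_TT (va : v a = 1) (v2 : v (2 : K) = 1) (vb : v b < 1) (b0 : b ≠ 0)
    {ξ₁ ξ₂ X₃ Z₃ X₄ Z₄ c : K} (n3 : Nrm X₃ Z₃) (n4 : Nrm X₄ Z₄) (hc : c ≠ 0)
    (h1 : v ξ₁ ≤ v b) (h2 : v ξ₂ ≤ v b)
    (r0 : X₃ * X₄ = c * (ξ₁ * ξ₂ - b) ^ 2)
    (r1 : X₃ * Z₄ + X₄ * Z₃ =
      c * (2 * (ξ₁ + ξ₂) * (ξ₁ * ξ₂) + 4 * a * (ξ₁ * ξ₂) + 2 * b * (ξ₁ + ξ₂)))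
    (r2 : Z₃ * Z₄ = c * (ξ₁ - ξ₂) ^ 2) :
    Dv v (v b) X₃ Z₃ = 1 ∧ Dv v (v b) X₄ Z₄ = 1 := by
  have hN0 : 0 < v b := zero_lt_iff.2 ((Valuation.ne_zero_iff v).2 b0)
  have v4 := v4_of_v2 v v2
  have hprod : v (ξ₁ * ξ₂) ≤ v b * v b := by rw [map_mul]; gcongr
  have hNN : v b * v b < v b := mul_lt_of_lt_one_right hN0 vb
  have ea0 : v (ξ₁ * ξ₂ - b) = v b :=
    Valuation.map_sub_eq_of_lt_right v (hprod.trans_lt hNN)
  have ea2 : v (ξ₁ - ξ₂) ≤ v b := Valuation.map_sub_le v h1 h2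
  have hsum : v (ξ₁ + ξ₂) ≤ v b := Valuation.map_add_le v h1 h2
  have hA1 : v (2 * (ξ₁ + ξ₂) * (ξ₁ * ξ₂) + 4 * a * (ξ₁ * ξ₂) + 2 * b * (ξ₁ + ξ₂)) ≤
      v b * v b := by
    refine Valuation.map_add_le v (Valuation.map_add_le v ?_ ?_) ?_
    · rw [map_mul, map_mul, v2, one_mul]
      calc v (ξ₁ + ξ₂) * v (ξ₁ * ξ₂) ≤ 1 * (v b * v b) := by
            gcongr
            exact hsum.trans vb.le
        _ = _ := one_mul _
    · rw [map_mul, map_mul, v4, va, one_mul, one_mul]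
      exact hprod
    · rw [map_mul, map_mul, v2, one_mul]
      gcongr
  set A1 := 2 * (ξ₁ + ξ₂) * (ξ₁ * ξ₂) + 4 * a * (ξ₁ * ξ₂) + 2 * b * (ξ₁ + ξ₂) with hA1def
  rcases lt_or_ge (v (ξ₁ * ξ₂ - b) * v (ξ₁ - ξ₂)) (v A1) with hlt | hle
  · have hA0 : v A1 ≠ 0 := (lt_of_le_of_lt zero_le hlt).ne'
    have hα : v (ξ₁ - ξ₂) ^ 2 ≤ v A1 := by
      rw [ea0] at hlt
      refine le_trans ?_ hlt.le
      rw [sq]
      gcongr
    have hβ : v A1 ≤ v (ξ₁ * ξ₂ - b) ^ 2 := by rw [ea0, sq]; exact hA1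
    have hb2 : v (ξ₁ * ξ₂ - b) ^ 2 ≠ 0 := by rw [ea0]; exact pow_ne_zero _ hN0.ne'
    rcases np_lt v hc r0 r1 r2 hlt with ⟨e3, e4⟩ | ⟨e4, e3⟩
    · exact ⟨Dv_eq_one v vb n3 hA0 hα e3, Dv_eq_one v vb n4 hb2 hβ e4⟩
    · exact ⟨Dv_eq_one v vb n3 hb2 hβ e3, Dv_eq_one v vb n4 hA0 hα e4⟩
  · obtain ⟨e3, e4⟩ := np_le v hc r0 r1 r2 hle
    rw [ea0] at e3 e4
    exact ⟨Dv_eq_one v vb n3 hN0.ne' ea2 e3, Dv_eq_one v vb n4 hN0.ne' ea2 e4⟩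

/-- the shape of the point of big slope in the case `Mid × Mid`. -/
def BigS (v : Valuation K Γ₀) (N : Γ₀) (ξ₁ ξ₂ X Z : K) : Prop :=
  Dv v N X Z * v ξ₂ ^ 2 = v ξ₁ * v ξ₂ ∨ Dv v N X Z * v ξ₁ ^ 2 = v ξ₁ * v ξ₂ ∨
    (v ξ₁ = v ξ₂ ∧ Dv v N X Z = 1)

/-- the shape of the point of small slope in the case `Mid × Mid`. -/
def SmallS (v : Valuation K Γ₀) (N : Γ₀) (ξ₁ ξ₂ X Z : K) : Prop :=
  Dv v N X Z * (v ξ₁ * v ξ₂) = (v ξ₁ * v ξ₂) ^ 2 ∨ Dv v N X Z * (v ξ₁ * v ξ₂) = N ^ 2 ∨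
    (v ξ₁ * v ξ₂ = N ∧ Dv v N X Z = N)

theorem case_MM_aux (va : v a = 1) (v2 : v (2 : K) = 1) (vb : v b < 1) (b0 : b ≠ 0)
    {ξ₁ ξ₂ X₃ Z₃ X₄ Z₄ c : K} (n3 : Nrm X₃ Z₃) (n4 : Nrm X₄ Z₄) (hc : c ≠ 0)
    (h1 : v b < v ξ₁) (h1' : v ξ₁ < 1) (h2 : v b < v ξ₂) (h2' : v ξ₂ < 1) (hle : v ξ₁ ≤ v ξ₂)
    (r0 : X₃ * X₄ = c * (ξ₁ * ξ₂ - b) ^ 2)
    (r1 : X₃ * Z₄ + X₄ * Z₃ =
      c * (2 * (ξ₁ + ξ₂) * (ξ₁ * ξ₂) + 4 * a * (ξ₁ * ξ₂) + 2 * b * (ξ₁ + ξ₂)))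
    (r2 : Z₃ * Z₄ = c * (ξ₁ - ξ₂) ^ 2) :
    (BigS v (v b) ξ₁ ξ₂ X₃ Z₃ ∧ SmallS v (v b) ξ₁ ξ₂ X₄ Z₄) ∨
    (BigS v (v b) ξ₁ ξ₂ X₄ Z₄ ∧ SmallS v (v b) ξ₁ ξ₂ X₃ Z₃) := by
  have hN0 : 0 < v b := zero_lt_iff.2 ((Valuation.ne_zero_iff v).2 b0)
  have v4 := v4_of_v2 v v2
  have hp1 : 0 < v ξ₁ := hN0.trans h1
  have hp2 : 0 < v ξ₂ := hN0.trans h2
  have hpp : 0 < v ξ₁ * v ξ₂ := mul_pos hp1 hp2
  have hsum : v (ξ₁ + ξ₂) ≤ v ξ₂ := Valuation.map_add_le v hle le_rfl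
  have hT1 : v (2 * (ξ₁ + ξ₂) * (ξ₁ * ξ₂)) < v ξ₁ * v ξ₂ := by
    rw [map_mul, map_mul, v2, one_mul, map_mul]
    exact mul_lt_of_lt_one_left hpp (hsum.trans_lt h2')
  have hT2 : v (4 * a * (ξ₁ * ξ₂)) = v ξ₁ * v ξ₂ := by
    rw [map_mul, map_mul, v4, va, one_mul, one_mul, map_mul]
  have hT3 : v (2 * b * (ξ₁ + ξ₂)) < v ξ₁ * v ξ₂ := by
    rw [map_mul, map_mul, v2, one_mul]
    calc v b * v (ξ₁ + ξ₂) ≤ v b * v ξ₂ := by gcongr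
      _ < v ξ₁ * v ξ₂ := mul_lt_mul_of_pos_right h1 hp2
  have hA1 : v (2 * (ξ₁ + ξ₂) * (ξ₁ * ξ₂) + 4 * a * (ξ₁ * ξ₂) + 2 * b * (ξ₁ + ξ₂)) =
      v ξ₁ * v ξ₂ := by
    have h12 : v (2 * (ξ₁ + ξ₂) * (ξ₁ * ξ₂) + 4 * a * (ξ₁ * ξ₂)) = v ξ₁ * v ξ₂ := by
      rw [← hT2]
      exact Valuation.map_add_eq_of_lt_right v (by rw [hT2]; exact hT1)
    rw [← h12]
    exact Valuation.map_add_eq_of_lt_left v (by rw [h12]; exact hT3)
  set A1 := 2 * (ξ₁ + ξ₂) * (ξ₁ * ξ₂) + 4 * a * (ξ₁ * ξ₂) + 2 * b * (ξ₁ + ξ₂) with hA1def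
  have ha2 : v (ξ₁ - ξ₂) ≤ v ξ₂ := Valuation.map_sub_le v hle le_rfl
  have ha0 : v (ξ₁ * ξ₂ - b) < v ξ₁ := by
    refine Valuation.map_sub_lt v ?_ h1
    rw [map_mul]
    exact mul_lt_of_lt_one_right hp1 h2'
  have hlt : v (ξ₁ * ξ₂ - b) * v (ξ₁ - ξ₂) < v A1 := by
    rw [hA1]
    calc v (ξ₁ * ξ₂ - b) * v (ξ₁ - ξ₂) ≤ v (ξ₁ * ξ₂ - b) * v ξ₂ := by gcongr
      _ < v ξ₁ * v ξ₂ := mul_lt_mul_of_pos_right ha0 hp2
  have big : ∀ {X Z : K}, Nrm X Z → v X * v (ξ₁ - ξ₂) ^ 2 = v Z * v A1 →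
      BigS v (v b) ξ₁ ξ₂ X Z := by
    intro X Z n e
    rw [hA1] at e
    rcases hle.lt_or_eq with hlt' | heq
    · left
      rw [Valuation.map_sub_eq_of_lt_right v hlt'] at e
      refine Dv_eq_mid v n ?_ ?_ e
      · rw [sq, ← mul_assoc]
        refine mul_lt_mul_of_pos_right ?_ hp2
        exact (mul_lt_of_lt_one_right hN0 h2').trans h1
      · rw [sq]
        exact mul_lt_mul_of_pos_right hlt' hp2
    · right; right
      refine ⟨heq, Dv_eq_one v vb n hpp.ne' ?_ e⟩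
      rw [sq, heq]
      gcongr
  have small : ∀ {X Z : K}, Nrm X Z → v X * v A1 = v Z * v (ξ₁ * ξ₂ - b) ^ 2 →
      SmallS v (v b) ξ₁ ξ₂ X Z := by
    intro X Z n e
    rw [hA1] at e
    rcases lt_trichotomy (v b) (v ξ₁ * v ξ₂) with hlt' | heq | hgt
    · left
      rw [Valuation.map_sub_eq_of_lt_left v (by rw [map_mul]; exact hlt'), map_mul] at e
      refine Dv_eq_mid v n ?_ ?_ e
      · rw [sq]
        exact mul_lt_mul_of_pos_right hlt' hpp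
      · rw [sq]
        refine mul_lt_of_lt_one_left hpp ?_
        exact (mul_lt_of_lt_one_right hp1 h2').trans h1'
    · right; right
      refine ⟨heq.symm, Dv_eq_N v vb n hpp.ne' ?_ e⟩
      have : v (ξ₁ * ξ₂ - b) ≤ v b :=
        Valuation.map_sub_le v (by rw [map_mul, heq]) le_rfl
      rw [sq, ← heq]
      gcongr
    · right; left
      rw [Valuation.map_sub_eq_of_lt_right v (by rw [map_mul]; exact hgt)] at e
      refine Dv_eq_mid v n ?_ ?_ e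
      · rw [sq]
        exact mul_lt_mul_of_pos_left hgt hN0
      · rw [sq]
        exact mul_lt_mul'' h1 h2 zero_le zero_le
  rcases np_lt v hc r0 r1 r2 hlt with ⟨e3, e4⟩ | ⟨e4, e3⟩
  · exact Or.inl ⟨big n3 e3, small n4 e4⟩
  · exact Or.inr ⟨big n4 e4, small n3 e3⟩

theorem BigS_symm {N : Γ₀} {ξ₁ ξ₂ X Z : K} (h : BigS v N ξ₁ ξ₂ X Z) : BigS v N ξ₂ ξ₁ X Z := by
  rcases h with h | h | ⟨h, h'⟩
  · exact Or.inr (Or.inl (by rw [h, mul_comm]))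
  · exact Or.inl (by rw [h, mul_comm])
  · exact Or.inr (Or.inr ⟨h.symm, h'⟩)

theorem SmallS_symm {N : Γ₀} {ξ₁ ξ₂ X Z : K} (h : SmallS v N ξ₁ ξ₂ X Z) :
    SmallS v N ξ₂ ξ₁ X Z := by
  unfold SmallS at *
  rwa [mul_comm (v ξ₂) (v ξ₁)]

theorem case_MM (va : v a = 1) (v2 : v (2 : K) = 1) (vb : v b < 1) (b0 : b ≠ 0)
    {ξ₁ ξ₂ X₃ Z₃ X₄ Z₄ c : K} (n3 : Nrm X₃ Z₃) (n4 : Nrm X₄ Z₄) (hc : c ≠ 0)
    (h1 : v b < v ξ₁) (h1' : v ξ₁ < 1) (h2 : v b < v ξ₂) (h2' : v ξ₂ < 1)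
    (r0 : X₃ * X₄ = c * (ξ₁ * ξ₂ - b) ^ 2)
    (r1 : X₃ * Z₄ + X₄ * Z₃ =
      c * (2 * (ξ₁ + ξ₂) * (ξ₁ * ξ₂) + 4 * a * (ξ₁ * ξ₂) + 2 * b * (ξ₁ + ξ₂)))
    (r2 : Z₃ * Z₄ = c * (ξ₁ - ξ₂) ^ 2) :
    (BigS v (v b) ξ₁ ξ₂ X₃ Z₃ ∧ SmallS v (v b) ξ₁ ξ₂ X₄ Z₄) ∨
    (BigS v (v b) ξ₁ ξ₂ X₄ Z₄ ∧ SmallS v (v b) ξ₁ ξ₂ X₃ Z₃) := by
  rcases le_total (v ξ₁) (v ξ₂) with hle | hle
  · exact case_MM_aux v va v2 vb b0 n3 n4 hc h1 h1' h2 h2' hle r0 r1 r2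
  · have := case_MM_aux v va v2 vb b0 (ξ₁ := ξ₂) (ξ₂ := ξ₁) n3 n4 hc h2 h2' h1 h1' hle
      (by rw [r0]; ring) (by rw [r1]; ring) (by rw [r2]; ring)
    rcases this with ⟨hb, hs⟩ | ⟨hb, hs⟩
    · exact Or.inl ⟨BigS_symm v hb, SmallS_symm v hs⟩
    · exact Or.inr ⟨BigS_symm v hb, SmallS_symm v hs⟩

/-- `E0 × Mid`. -/
theorem case_EM (va : v a = 1) (v2 : v (2 : K) = 1) (vb : v b < 1) (b0 : b ≠ 0)
    {X₁ Z₁ ξ X₃ Z₃ X₄ Z₄ c : K} (n3 : Nrm X₃ Z₃) (n4 : Nrm X₄ Z₄) (hc : c ≠ 0)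
    (hz : v Z₁ ≤ v X₁) (hx0 : 0 < v X₁) (h2 : v b < v ξ) (h2' : v ξ < 1)
    (r0 : X₃ * X₄ = c * (X₁ * ξ - b * Z₁) ^ 2)
    (r1 : X₃ * Z₄ + X₄ * Z₃ =
      c * (2 * (X₁ + ξ * Z₁) * (X₁ * ξ) + 4 * a * (X₁ * ξ) * Z₁ + 2 * b * (X₁ + ξ * Z₁) * Z₁))
    (r2 : Z₃ * Z₄ = c * (X₁ - ξ * Z₁) ^ 2) :
    Dv v (v b) X₃ Z₃ = v ξ ∧ Dv v (v b) X₄ Z₄ = v ξ := by
  have hN0 : 0 < v b := zero_lt_iff.2 ((Valuation.ne_zero_iff v).2 b0)
  have v4 := v4_of_v2 v v2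
  have hξZ : v (ξ * Z₁) < v X₁ := by
    rw [map_mul]
    calc v ξ * v Z₁ ≤ v ξ * v X₁ := by gcongr
      _ < v X₁ := mul_lt_of_lt_one_left hx0 h2'
  have ea2 : v (X₁ - ξ * Z₁) = v X₁ := Valuation.map_sub_eq_of_lt_left v hξZ
  have hsum : v (X₁ + ξ * Z₁) ≤ v X₁ := Valuation.map_add_le v le_rfl hξZ.le
  have hbZ : v (b * Z₁) < v (X₁ * ξ) := by
    rw [map_mul, map_mul]
    calc v b * v Z₁ ≤ v b * v X₁ := by gcongr
      _ < v ξ * v X₁ := mul_lt_mul_of_pos_right h2 hx0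
      _ = v X₁ * v ξ := mul_comm _ _
  have ea0 : v (X₁ * ξ - b * Z₁) = v X₁ * v ξ := by
    rw [Valuation.map_sub_eq_of_lt_left v hbZ, map_mul]
  have hA1 : v (2 * (X₁ + ξ * Z₁) * (X₁ * ξ) + 4 * a * (X₁ * ξ) * Z₁ +
      2 * b * (X₁ + ξ * Z₁) * Z₁) ≤ v X₁ * v ξ * v X₁ := by
    refine Valuation.map_add_le v (Valuation.map_add_le v ?_ ?_) ?_
    · rw [map_mul, map_mul, v2, one_mul, map_mul, mul_comm]
      gcongr
    · rw [map_mul, map_mul, map_mul, v4, va, one_mul, one_mul, map_mul]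
      gcongr
    · rw [map_mul, map_mul, map_mul, v2, one_mul]
      calc v b * v (X₁ + ξ * Z₁) * v Z₁ ≤ v ξ * v X₁ * v X₁ := by gcongr
        _ = _ := by ac_rfl
  obtain ⟨e3, e4⟩ := np_le v hc r0 r1 r2 (by rw [ea0, ea2]; exact hA1)
  rw [ea0, ea2] at e3 e4
  have k1 : v b * v X₁ < v X₁ * v ξ := by
    rw [mul_comm (v X₁)]; exact mul_lt_mul_of_pos_right h2 hx0
  have k2 : v X₁ * v ξ < v X₁ := mul_lt_of_lt_one_right hx0 h2'
  have f3 := Dv_eq_mid v n3 k1 k2 e3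
  have f4 := Dv_eq_mid v n4 k1 k2 e4
  rw [mul_comm (v X₁)] at f3 f4
  exact ⟨mul_right_cancel₀ hx0.ne' f3, mul_right_cancel₀ hx0.ne' f4⟩

/-- `E0 × T`. -/
theorem case_ET (va : v a = 1) (v2 : v (2 : K) = 1) (vb : v b < 1) (b0 : b ≠ 0)
    {X₁ Z₁ ξ X₃ Z₃ X₄ Z₄ c : K} (n3 : Nrm X₃ Z₃) (n4 : Nrm X₄ Z₄) (hc : c ≠ 0)
    (hz : v Z₁ ≤ v X₁) (hx0 : 0 < v X₁) (h2 : v ξ ≤ v b)
    (r0 : X₃ * X₄ = c * (X₁ * ξ - b * Z₁) ^ 2)
    (r1 : X₃ * Z₄ + X₄ * Z₃ =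
      c * (2 * (X₁ + ξ * Z₁) * (X₁ * ξ) + 4 * a * (X₁ * ξ) * Z₁ + 2 * b * (X₁ + ξ * Z₁) * Z₁))
    (r2 : Z₃ * Z₄ = c * (X₁ - ξ * Z₁) ^ 2) :
    Dv v (v b) X₃ Z₃ = v b ∧ Dv v (v b) X₄ Z₄ = v b := by
  have hN0 : 0 < v b := zero_lt_iff.2 ((Valuation.ne_zero_iff v).2 b0)
  have v4 := v4_of_v2 v v2
  have h2' : v ξ < 1 := h2.trans_lt vb
  have hξZ : v (ξ * Z₁) < v X₁ := by
    rw [map_mul]
    calc v ξ * v Z₁ ≤ v ξ * v X₁ := by gcongr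
      _ < v X₁ := mul_lt_of_lt_one_left hx0 h2'
  have ea2 : v (X₁ - ξ * Z₁) = v X₁ := Valuation.map_sub_eq_of_lt_left v hξZ
  have hsum : v (X₁ + ξ * Z₁) ≤ v X₁ := Valuation.map_add_le v le_rfl hξZ.le
  have ea0 : v (X₁ * ξ - b * Z₁) ≤ v b * v X₁ := by
    refine Valuation.map_sub_le v ?_ ?_
    · rw [map_mul, mul_comm]; gcongr
    · rw [map_mul]; gcongr
  have hA1 : v (2 * (X₁ + ξ * Z₁) * (X₁ * ξ) + 4 * a * (X₁ * ξ) * Z₁ +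
      2 * b * (X₁ + ξ * Z₁) * Z₁) ≤ v b * v X₁ ^ 2 := by
    rw [sq]
    refine Valuation.map_add_le v (Valuation.map_add_le v ?_ ?_) ?_
    · rw [map_mul, map_mul, v2, one_mul, map_mul]
      calc v (X₁ + ξ * Z₁) * (v X₁ * v ξ) ≤ v X₁ * (v X₁ * v b) := by gcongr
        _ = _ := by ac_rfl
    · rw [map_mul, map_mul, map_mul, v4, va, one_mul, one_mul, map_mul]
      calc v X₁ * v ξ * v Z₁ ≤ v X₁ * v b * v X₁ := by gcongr
        _ = _ := by ac_rfl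
    · rw [map_mul, map_mul, map_mul, v2, one_mul]
      calc v b * v (X₁ + ξ * Z₁) * v Z₁ ≤ v b * v X₁ * v X₁ := by gcongr
        _ = _ := by ac_rfl
  set A1 := 2 * (X₁ + ξ * Z₁) * (X₁ * ξ) + 4 * a * (X₁ * ξ) * Z₁ +
      2 * b * (X₁ + ξ * Z₁) * Z₁ with hA1def
  rcases lt_or_ge (v (X₁ * ξ - b * Z₁) * v (X₁ - ξ * Z₁)) (v A1) with hlt | hle
  · have hA0 : v A1 ≠ 0 := (lt_of_le_of_lt zero_le hlt).ne'
    have hx2 : v (X₁ - ξ * Z₁) ^ 2 ≠ 0 := by rw [ea2]; exact pow_ne_zero _ hx0.ne'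
    have hα : v A1 ≤ v b * v (X₁ - ξ * Z₁) ^ 2 := by rw [ea2]; exact hA1
    have hβ : v (X₁ * ξ - b * Z₁) ^ 2 ≤ v b * v A1 := by
      rw [ea2] at hlt
      calc v (X₁ * ξ - b * Z₁) ^ 2 = v (X₁ * ξ - b * Z₁) * v (X₁ * ξ - b * Z₁) := sq _
        _ ≤ v (X₁ * ξ - b * Z₁) * (v b * v X₁) := by gcongr
        _ = v b * (v (X₁ * ξ - b * Z₁) * v X₁) := by ac_rfl
        _ ≤ v b * v A1 := by gcongr
    rcases np_lt v hc r0 r1 r2 hlt with ⟨e3, e4⟩ | ⟨e4, e3⟩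
    · exact ⟨Dv_eq_N v vb n3 hx2 hα e3, Dv_eq_N v vb n4 hA0 hβ e4⟩
    · exact ⟨Dv_eq_N v vb n3 hA0 hβ e3, Dv_eq_N v vb n4 hx2 hα e4⟩
  · obtain ⟨e3, e4⟩ := np_le v hc r0 r1 r2 hle
    rw [ea2] at e3 e4
    exact ⟨Dv_eq_N v vb n3 hx0.ne' ea0 e3, Dv_eq_N v vb n4 hx0.ne' ea0 e4⟩

end cases

/-! ### classes modulo `N ^ (2ℤ)` -/

section cls

variable (Nu : Γ₀ˣ)

/-- the class of a nonzero element of `Γ₀` modulo `N ^ (2ℤ)`, written additively. -/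
noncomputable def cls (x : Γ₀) : Additive (Γ₀ˣ ⧸ Subgroup.zpowers (Nu ^ 2)) :=
  open Classical in if h : x = 0 then 0 else Additive.ofMul (QuotientGroup.mk (Units.mk0 x h))

theorem cls_of_ne {x : Γ₀} (h : x ≠ 0) :
    cls Nu x = Additive.ofMul (QuotientGroup.mk (Units.mk0 x h)) := by
  simp [cls, h]

theorem cls_one : cls Nu 1 = 0 := by
  rw [cls_of_ne Nu one_ne_zero]
  simp

theorem cls_mul {x y : Γ₀} (hx : x ≠ 0) (hy : y ≠ 0) :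
    cls Nu (x * y) = cls Nu x + cls Nu y := by
  rw [cls_of_ne Nu hx, cls_of_ne Nu hy, cls_of_ne Nu (mul_ne_zero hx hy), ← ofMul_mul,
    ← QuotientGroup.mk_mul, Units.mk0_mul]

theorem cls_pow {x : Γ₀} (hx : x ≠ 0) (n : ℕ) : cls Nu (x ^ n) = n • cls Nu x := by
  induction n with
  | zero => simp [cls_one]
  | succ n ih => rw [pow_succ x n, cls_mul Nu (pow_ne_zero _ hx) hx, ih, succ_nsmul]

theorem cls_N_add : cls Nu (Nu : Γ₀) + cls Nu (Nu : Γ₀) = 0 := by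
  rw [cls_of_ne Nu Nu.ne_zero, ← ofMul_mul, ← QuotientGroup.mk_mul, Units.mk0_val, ← sq]
  rw [(QuotientGroup.eq_one_iff _).2 (Subgroup.mem_zpowers _)]
  rfl

theorem exists_of_cls_eq_zero {x : Γ₀} (hx : x ≠ 0) (h : cls Nu x = 0) :
    ∃ j : ℤ, x = (Nu : Γ₀) ^ (2 * j) := by
  rw [cls_of_ne Nu hx] at h
  have h' : (QuotientGroup.mk (Units.mk0 x hx) : Γ₀ˣ ⧸ Subgroup.zpowers (Nu ^ 2)) = 1 := h
  rw [QuotientGroup.eq_one_iff, Subgroup.mem_zpowers_iff] at h'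
  obtain ⟨j, hj⟩ := h'
  refine ⟨j, ?_⟩
  have := congrArg (Units.val) hj
  rw [Units.val_mk0] at this
  rw [← this, zpow_mul]
  simp

end cls

/-- equality up to sign. -/
def PMa {Q : Type*} [AddCommGroup Q] (a b : Q) : Prop := a = b ∨ a = -b

theorem pm_step {Q : Type*} [AddCommGroup Q] (d0 d1 d2 t : Q) (k : ℕ)
    (h0 : PMa d0 (k • t)) (h1 : PMa d1 ((k + 1) • t))
    (hstep : (PMa d2 (d1 + t) ∧ PMa d0 (d1 - t)) ∨ (PMa d2 (d1 - t) ∧ PMa d0 (d1 + t))) :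
    PMa d2 ((k + 2) • t) := by
  unfold PMa at *
  have e1 : (k + 1) • t = k • t + t := by rw [add_smul, one_smul]
  have e2 : (k + 2) • t = k • t + t + t := by rw [add_smul, two_smul, add_assoc]
  rw [e1] at h1
  rw [e2]
  generalize k • t = s at *
  grind

section pm
variable {Q : Type*} [AddCommGroup Q]

theorem pmE (x : Q) : PMa x (0 + x) ∧ PMa x (0 - x) := by unfold PMa; grind

theorem pmTM {n x d3 d4 : Q} (hn : n + n = 0) (f3 : d3 + x = n) (f4 : d4 + x = n) :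
    PMa d3 (n + x) ∧ PMa d4 (n - x) := by
  have hn' : n = -n := eq_neg_of_add_eq_zero_left hn
  refine ⟨Or.inr ?_, Or.inl (eq_sub_of_add_eq f4)⟩
  calc d3 = n - x := eq_sub_of_add_eq f3
    _ = -n - x := by rw [← hn']
    _ = -(n + x) := by abel

theorem pmMT {n x d3 d4 : Q} (hn : n + n = 0) (f3 : d3 + x = n) (f4 : d4 + x = n) :
    PMa d3 (x + n) ∧ PMa d4 (x - n) := by
  have hn' : n = -n := eq_neg_of_add_eq_zero_left hn
  refine ⟨Or.inr ?_, Or.inr ?_⟩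
  · calc d3 = n - x := eq_sub_of_add_eq f3
      _ = -n - x := by rw [← hn']
      _ = -(x + n) := by abel
  · calc d4 = n - x := eq_sub_of_add_eq f4
      _ = -(x - n) := by abel

theorem pmTT {n : Q} (hn : n + n = 0) : PMa (0 : Q) (n + n) ∧ PMa (0 : Q) (n - n) :=
  ⟨Or.inl hn.symm, Or.inl (sub_self n).symm⟩

theorem pmBig1 {d x1 x2 : Q} (h : d + (x2 + x2) = x1 + x2) : PMa d (x1 - x2) := by
  unfold PMa; grind

theorem pmBig2 {d x1 x2 : Q} (h : d + (x1 + x1) = x1 + x2) : PMa d (x1 - x2) := by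
  unfold PMa; grind

theorem pmBig3 (x : Q) : PMa (0 : Q) (x - x) := by unfold PMa; grind

theorem pmSmall1 {d x1 x2 : Q} (h : d + (x1 + x2) = (x1 + x2) + (x1 + x2)) :
    PMa d (x1 + x2) := by unfold PMa; grind

theorem pmSmall2 {n d x1 x2 : Q} (hn : n + n = 0) (h : d + (x1 + x2) = n + n) :
    PMa d (x1 + x2) := Or.inr (eq_neg_of_add_eq_zero_left (h.trans hn))

end pm

theorem Dv_of_E0 (v : Valuation K Γ₀) {N : Γ₀} (hN : N < 1) {X Z : K} (h : Nrm X Z)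
    (hz : v Z ≤ v X) : Dv v N X Z = 1 := by
  rcases h with ⟨hZ, -⟩ | hZ
  · simp [Dv, hZ]
  · rw [hZ, map_one] at hz
    simp [Dv, hZ, min_eq_left hz, max_eq_right hN.le]

theorem Dv_of_mid (v : Valuation K Γ₀) {N : Γ₀} {X : K} (h1 : N < v X) (h2 : v X < 1) :
    Dv v N X 1 = v X := by
  simp [Dv, min_eq_right h2.le, max_eq_right h1.le]

theorem Dv_of_T (v : Valuation K Γ₀) {N : Γ₀} (hN : N < 1) {X : K} (h1 : v X ≤ N) :
    Dv v N X 1 = N := by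
  simp [Dv, min_eq_right (h1.trans hN.le), max_eq_left h1]

namespace KumSys

variable {G : Type*} [AddCommGroup G]

theorem nrm (S : KumSys G K) (P : G) : Nrm (S.X P) (S.Z P) := by
  by_cases h : P = 0
  · subst h
    exact Or.inl ⟨S.Z_zero, S.X_zero⟩
  · exact Or.inr (S.Z_of_ne P h)

/-- the clamped valuation of the x-coordinate. -/
noncomputable def D (S : KumSys G K) (v : Valuation K Γ₀) (b : K) (P : G) : Γ₀ :=
  Dv v (v b) (S.X P) (S.Z P)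

theorem IsNodal.vb_ne {S : KumSys G K} {v : Valuation K Γ₀} {a b : K}
    (hS : S.IsNodal v a b) : v b ≠ 0 := (Valuation.ne_zero_iff v).2 hS.b0

theorem Z_eq_one_of_not_E0 {S : KumSys G K} {v : Valuation K Γ₀} {P : G} (h : ¬ S.E0 v P) :
    S.Z P = 1 := by
  rcases S.nrm P with ⟨hZ, hX⟩ | hZ
  · exact absurd (by simp [E0, hZ]) h
  · exact hZ

theorem kprime {S : KumSys G K} {v : Valuation K Γ₀} {a b : K} (hS : S.IsNodal v a b)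
    (P Q : G) (hQ : ¬ S.E0 v Q) :
    (PMa (cls (Units.mk0 _ hS.vb_ne) (S.D v b (P + Q)))
        (cls (Units.mk0 _ hS.vb_ne) (S.D v b P) + cls (Units.mk0 _ hS.vb_ne) (S.D v b Q)) ∧
      PMa (cls (Units.mk0 _ hS.vb_ne) (S.D v b (P - Q)))
        (cls (Units.mk0 _ hS.vb_ne) (S.D v b P) - cls (Units.mk0 _ hS.vb_ne) (S.D v b Q))) ∨
    (PMa (cls (Units.mk0 _ hS.vb_ne) (S.D v b (P + Q)))
        (cls (Units.mk0 _ hS.vb_ne) (S.D v b P) - cls (Units.mk0 _ hS.vb_ne) (S.D v b Q)) ∧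
      PMa (cls (Units.mk0 _ hS.vb_ne) (S.D v b (P - Q)))
        (cls (Units.mk0 _ hS.vb_ne) (S.D v b P) + cls (Units.mk0 _ hS.vb_ne) (S.D v b Q))) := by
  set Nu := Units.mk0 _ hS.vb_ne with hNu
  have hNuv : (Nu : Γ₀) = v b := rfl
  have hNN : cls Nu (v b) + cls Nu (v b) = 0 := cls_N_add Nu
  have hN0 : v b ≠ 0 := hS.vb_ne
  obtain ⟨c, hc, r0, r1, r2⟩ := S.rel P Q
  have hZQ : S.Z Q = 1 := Z_eq_one_of_not_E0 hQ
  have hξ : v (S.X Q) < 1 := by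
    have := hQ
    rw [E0, hZQ, map_one, not_le] at this
    exact this
  rw [hS.hb₄, hS.hb₆, hS.hb₈, hZQ] at r0
  rw [hS.hb₂, hS.hb₄, hS.hb₆, hZQ] at r1
  rw [hZQ] at r2
  have n3 := S.nrm (P + Q)
  have n4 := S.nrm (P - Q)
  have n1 := S.nrm P
  simp only [D, hZQ]
  generalize S.X (P + Q) = X₃ at *
  generalize S.Z (P + Q) = Z₃ at *
  generalize S.X (P - Q) = X₄ at *
  generalize S.Z (P - Q) = Z₄ at *
  generalize S.X P = X₁ at *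
  generalize S.Z P = Z₁ at *
  generalize S.X Q = ξ at *
  have r0' : X₃ * X₄ = c * (X₁ * ξ - b * Z₁) ^ 2 := by rw [r0, F0]; ring
  have r1' : X₃ * Z₄ + X₄ * Z₃ =
      c * (2 * (X₁ + ξ * Z₁) * (X₁ * ξ) + 4 * a * (X₁ * ξ) * Z₁ + 2 * b * (X₁ + ξ * Z₁) * Z₁) := by
    rw [r1, F1]; ring
  have r2' : Z₃ * Z₄ = c * (X₁ - ξ * Z₁) ^ 2 := by rw [r2, F2]; ring
  clear r0 r1 r2
  rcases le_or_gt (v Z₁) (v X₁) with hz | hz
  · -- `P ∈ E0`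
    have hx0 : 0 < v X₁ := by
      rcases n1 with ⟨-, hX⟩ | hZ
      · rw [hX, map_one]; exact zero_lt_one
      · rw [hZ, map_one] at hz; exact zero_lt_one.trans_le hz
    rw [Dv_of_E0 v hS.vb n1 hz, cls_one]
    rcases lt_or_ge (v b) (v ξ) with h2 | h2
    · obtain ⟨e3, e4⟩ := case_EM v hS.va hS.v2 hS.vb hS.b0 n3 n4 hc hz hx0 h2 hξ r0' r1' r2'
      rw [e3, e4, Dv_of_mid v h2 hξ]
      exact Or.inl (pmE _)
    · obtain ⟨e3, e4⟩ := case_ET v hS.va hS.v2 hS.vb hS.b0 n3 n4 hc hz hx0 h2 r0' r1' r2'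
      rw [e3, e4, Dv_of_T v hS.vb h2]
      exact Or.inl (pmE _)
  · -- `P` affine, reducing to the node
    have hZ1 : Z₁ = 1 := by
      rcases n1 with ⟨hZ, hX⟩ | hZ
      · rw [hZ, map_zero] at hz; exact absurd hz (not_lt.2 zero_le)
      · exact hZ
    subst hZ1
    rw [map_one] at hz
    have r0 : X₃ * X₄ = c * (X₁ * ξ - b) ^ 2 := by rw [r0']; ring
    have r1 : X₃ * Z₄ + X₄ * Z₃ =
        c * (2 * (X₁ + ξ) * (X₁ * ξ) + 4 * a * (X₁ * ξ) + 2 * b * (X₁ + ξ)) := by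
      rw [r1']; ring
    have r2 : Z₃ * Z₄ = c * (X₁ - ξ) ^ 2 := by rw [r2']; ring
    rcases lt_or_ge (v b) (v X₁) with h1 | h1 <;> rcases lt_or_ge (v b) (v ξ) with h2 | h2
    · -- Mid × Mid
      have hx1 : v X₁ ≠ 0 := (lt_of_le_of_lt zero_le h1).ne'
      have hx2 : v ξ ≠ 0 := (lt_of_le_of_lt zero_le h2).ne'
      rw [Dv_of_mid v h1 hz, Dv_of_mid v h2 hξ]
      have hD0 : ∀ X Z : K, Dv v (v b) X Z ≠ 0 := by
        intro X Z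
        unfold Dv
        split_ifs
        · exact one_ne_zero
        · exact (lt_of_lt_of_le (zero_lt_iff.2 hN0) (le_max_left _ _)).ne'
      have big : ∀ {X Z : K}, BigS v (v b) X₁ ξ X Z →
          PMa (cls Nu (Dv v (v b) X Z)) (cls Nu (v X₁) - cls Nu (v ξ)) := by
        intro X Z h
        rcases h with h | h | ⟨h, h'⟩
        · have := congrArg (cls Nu) h
          rw [cls_mul Nu (hD0 X Z) (pow_ne_zero _ hx2), cls_mul Nu hx1 hx2, sq (v ξ),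
            cls_mul Nu hx2 hx2] at this
          exact pmBig1 this
        · have := congrArg (cls Nu) h
          rw [cls_mul Nu (hD0 X Z) (pow_ne_zero _ hx1), cls_mul Nu hx1 hx2, sq (v X₁),
            cls_mul Nu hx1 hx1] at this
          exact pmBig2 this
        · rw [h', h, cls_one]
          exact pmBig3 _
      have small : ∀ {X Z : K}, SmallS v (v b) X₁ ξ X Z →
          PMa (cls Nu (Dv v (v b) X Z)) (cls Nu (v X₁) + cls Nu (v ξ)) := by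
        intro X Z h
        rcases h with h | h | ⟨h, h'⟩
        · have := congrArg (cls Nu) h
          rw [cls_mul Nu (hD0 X Z) (mul_ne_zero hx1 hx2), sq (v X₁ * v ξ),
            cls_mul Nu (mul_ne_zero hx1 hx2) (mul_ne_zero hx1 hx2), cls_mul Nu hx1 hx2] at this
          exact pmSmall1 this
        · have := congrArg (cls Nu) h
          rw [cls_mul Nu (hD0 X Z) (mul_ne_zero hx1 hx2), sq (v b),
            cls_mul Nu hN0 hN0, cls_mul Nu hx1 hx2] at this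
          exact pmSmall2 hNN this
        · rw [h', ← h, cls_mul Nu hx1 hx2]
          exact Or.inl rfl
      rcases case_MM v hS.va hS.v2 hS.vb hS.b0 n3 n4 hc h1 hz h2 hξ r0 r1 r2 with
        ⟨hb, hs⟩ | ⟨hb, hs⟩
      · exact Or.inr ⟨big hb, small hs⟩
      · exact Or.inl ⟨small hs, big hb⟩
    · -- Mid × T
      have hx1 : v X₁ ≠ 0 := (lt_of_le_of_lt zero_le h1).ne'
      obtain ⟨e3, e4⟩ := case_TM v hS.va hS.v2 hS.vb hS.b0 (ξ₁ := ξ) (ξ₂ := X₁) n3 n4 hc h2 h1 hz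
        (by rw [r0]; ring) (by rw [r1]; ring) (by rw [r2]; ring)
      rw [Dv_of_mid v h1 hz, Dv_of_T v hS.vb h2]
      have hD3 : Dv v (v b) X₃ Z₃ ≠ 0 := by
        intro h; rw [h, zero_mul] at e3; exact hN0 e3.symm
      have hD4 : Dv v (v b) X₄ Z₄ ≠ 0 := by
        intro h; rw [h, zero_mul] at e4; exact hN0 e4.symm
      have f3 := congrArg (cls Nu) e3
      have f4 := congrArg (cls Nu) e4
      rw [cls_mul Nu hD3 hx1] at f3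
      rw [cls_mul Nu hD4 hx1] at f4
      exact Or.inl (pmMT hNN f3 f4)
    · -- T × Mid
      have hx2 : v ξ ≠ 0 := (lt_of_le_of_lt zero_le h2).ne'
      obtain ⟨e3, e4⟩ := case_TM v hS.va hS.v2 hS.vb hS.b0 n3 n4 hc h1 h2 hξ r0 r1 r2
      rw [Dv_of_T v hS.vb h1, Dv_of_mid v h2 hξ]
      have hD3 : Dv v (v b) X₃ Z₃ ≠ 0 := by
        intro h; rw [h, zero_mul] at e3; exact hN0 e3.symm
      have hD4 : Dv v (v b) X₄ Z₄ ≠ 0 := by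
        intro h; rw [h, zero_mul] at e4; exact hN0 e4.symm
      have f3 := congrArg (cls Nu) e3
      have f4 := congrArg (cls Nu) e4
      rw [cls_mul Nu hD3 hx2] at f3
      rw [cls_mul Nu hD4 hx2] at f4
      exact Or.inl (pmTM hNN f3 f4)
    · -- T × T
      obtain ⟨e3, e4⟩ := case_TT v hS.va hS.v2 hS.vb hS.b0 n3 n4 hc h1 h2 r0 r1 r2
      rw [e3, e4, Dv_of_T v hS.vb h1, Dv_of_T v hS.vb h2, cls_one]
      exact Or.inl (pmTT hNN)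

theorem D_zero (S : KumSys G K) (v : Valuation K Γ₀) (b : K) : S.D v b 0 = 1 := by
  simp [D, Dv, S.Z_zero]

theorem cls_D_nsmul {S : KumSys G K} {v : Valuation K Γ₀} {a b : K} (hS : S.IsNodal v a b)
    {P : G} (hP0 : ¬ S.E0 v P) (k : ℕ) :
    PMa (cls (Units.mk0 _ hS.vb_ne) (S.D v b (k • P)))
        (k • cls (Units.mk0 _ hS.vb_ne) (S.D v b P)) ∧
      PMa (cls (Units.mk0 _ hS.vb_ne) (S.D v b ((k + 1) • P)))
        ((k + 1) • cls (Units.mk0 _ hS.vb_ne) (S.D v b P)) := by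
  induction k with
  | zero =>
    refine ⟨Or.inl ?_, Or.inl ?_⟩
    · rw [zero_smul, D_zero, cls_one]; exact (zero_nsmul _).symm
    · rw [zero_add, one_smul, one_smul]
  | succ k ih =>
    refine ⟨ih.2, ?_⟩
    have key := kprime hS ((k + 1) • P) P hP0
    have e1 : (k + 1) • P + P = (k + 1 + 1) • P := by rw [add_smul (k + 1) 1 P, one_smul]
    have e2 : (k + 1) • P - P = k • P := by rw [add_smul k 1 P, one_smul, add_sub_cancel_right]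
    rw [e1, e2] at key
    exact pm_step _ _ _ _ k ih.1 ih.2 key

/-- D1. -/
theorem IsNodal.torsion_val {S : KumSys G K} {v : Valuation K Γ₀} {a b : K}
    (hS : S.IsNodal v a b) {P : G} {n : ℕ} (hn : Odd n) (hP : n • P = 0) (hP0 : ¬ S.E0 v P) :
    v b < v (S.X P) ∧ ∃ j : ℤ, v (S.X P) ^ n = v b ^ (2 * j) := by
  have hN0 : v b ≠ 0 := hS.vb_ne
  have hZ : S.Z P = 1 := Z_eq_one_of_not_E0 hP0
  have hξ : v (S.X P) < 1 := by
    have := hP0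
    rw [E0, hZ, map_one, not_le] at this
    exact this
  have hD0 : S.D v b P ≠ 0 := by
    unfold D Dv
    split_ifs
    · exact one_ne_zero
    · exact (lt_of_lt_of_le (zero_lt_iff.2 hN0) (le_max_left _ _)).ne'
  have h := (cls_D_nsmul hS hP0 n).1
  rw [hP, D_zero, cls_one, ← cls_pow _ hD0] at h
  have h0 : cls (Units.mk0 _ hS.vb_ne) (S.D v b P ^ n) = 0 := by
    rcases h with h | h
    · exact h.symm
    · exact neg_eq_zero.1 h.symm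
  obtain ⟨j, hj⟩ := exists_of_cls_eq_zero _ (pow_ne_zero _ hD0) h0
  rw [Units.val_mk0] at hj
  rcases lt_or_ge (v b) (v (S.X P)) with h1 | h1
  · refine ⟨h1, j, ?_⟩
    rw [D, hZ, Dv_of_mid v h1 hξ] at hj
    exact hj
  · exfalso
    rw [D, hZ, Dv_of_T v hS.vb h1, ← zpow_natCast] at hj
    have := zpow_right_injective₀ (zero_lt_iff.2 hN0) hS.vb.ne hj
    obtain ⟨m, hm⟩ := hn
    omega

/-- D2. -/
theorem IsNodal.E0_sub_or_add {S : KumSys G K} {v : Valuation K Γ₀} {a b : K}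
    (hS : S.IsNodal v a b) {P R : G} (hP0 : ¬ S.E0 v P) (hPb : v b < v (S.X P)) (hR : R ≠ 0)
    (hPR : v (S.X R) = v (S.X P)) : S.E0 v (P - R) ∨ S.E0 v (P + R) := by
  have hN0 : 0 < v b := zero_lt_iff.2 hS.vb_ne
  have v4 := v4_of_v2 v hS.v2
  have hZ : S.Z P = 1 := Z_eq_one_of_not_E0 hP0
  have hZR : S.Z R = 1 := S.Z_of_ne R hR
  have hξ : v (S.X P) < 1 := by
    have := hP0
    rw [E0, hZ, map_one, not_le] at this
    exact this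
  obtain ⟨c, hc, -, r1, r2⟩ := S.rel P R
  rw [hS.hb₂, hS.hb₄, hS.hb₆, hZ, hZR] at r1
  rw [hZ, hZR] at r2
  by_contra hcon
  rw [not_or] at hcon
  obtain ⟨h4, h3⟩ := hcon
  rw [E0, not_le] at h3 h4
  generalize S.X (P + R) = X₃ at *
  generalize S.Z (P + R) = Z₃ at *
  generalize S.X (P - R) = X₄ at *
  generalize S.Z (P - R) = Z₄ at *
  generalize S.X P = ξ₁ at *
  generalize S.X R = ξ₂ at *
  have hγ : 0 < v c := zero_lt_iff.2 ((Valuation.ne_zero_iff v).2 hc)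
  have hp1 : 0 < v ξ₁ := hN0.trans hPb
  have hpp : 0 < v ξ₁ * v ξ₁ := mul_pos hp1 hp1
  have hsum : v (ξ₁ + ξ₂) ≤ v ξ₁ := Valuation.map_add_le v le_rfl hPR.le
  have hF1 : v (F1 (4 * a) (2 * b) 0 ξ₁ 1 ξ₂ 1) = v ξ₁ * v ξ₁ := by
    have e : F1 (4 * a) (2 * b) 0 ξ₁ 1 ξ₂ 1 =
        2 * (ξ₁ + ξ₂) * (ξ₁ * ξ₂) + 4 * a * (ξ₁ * ξ₂) + 2 * b * (ξ₁ + ξ₂) := by
      rw [F1]; ring
    have hT1 : v (2 * (ξ₁ + ξ₂) * (ξ₁ * ξ₂)) < v ξ₁ * v ξ₁ := by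
      rw [map_mul, map_mul, hS.v2, one_mul, map_mul, hPR]
      exact mul_lt_of_lt_one_left hpp (hsum.trans_lt hξ)
    have hT2 : v (4 * a * (ξ₁ * ξ₂)) = v ξ₁ * v ξ₁ := by
      rw [map_mul, map_mul, v4, hS.va, one_mul, one_mul, map_mul, hPR]
    have hT3 : v (2 * b * (ξ₁ + ξ₂)) < v ξ₁ * v ξ₁ := by
      rw [map_mul, map_mul, hS.v2, one_mul]
      calc v b * v (ξ₁ + ξ₂) ≤ v b * v ξ₁ := by gcongr
        _ < v ξ₁ * v ξ₁ := mul_lt_mul_of_pos_right hPb hp1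
    have h12 : v (2 * (ξ₁ + ξ₂) * (ξ₁ * ξ₂) + 4 * a * (ξ₁ * ξ₂)) = v ξ₁ * v ξ₁ := by
      rw [← hT2]
      exact Valuation.map_add_eq_of_lt_right v (by rw [hT2]; exact hT1)
    rw [e, ← h12]
    exact Valuation.map_add_eq_of_lt_left v (by rw [h12]; exact hT3)
  have hF2 : v (F2 ξ₁ 1 ξ₂ 1) ≤ v ξ₁ * v ξ₁ := by
    have e : F2 ξ₁ 1 ξ₂ 1 = (ξ₁ - ξ₂) * (ξ₁ - ξ₂) := by rw [F2]; ring
    have : v (ξ₁ - ξ₂) ≤ v ξ₁ := Valuation.map_sub_le v le_rfl hPR.le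
    rw [e, map_mul]
    gcongr
  have hz3 : 0 < v Z₃ := lt_of_le_of_lt zero_le h3
  have hz4 : 0 < v Z₄ := lt_of_le_of_lt zero_le h4
  have hlt : v (X₃ * Z₄ + X₄ * Z₃) < v Z₃ * v Z₄ := by
    refine Valuation.map_add_lt v ?_ ?_
    · rw [map_mul]; exact mul_lt_mul_of_pos_right h3 hz4
    · rw [map_mul, mul_comm]; exact mul_lt_mul_of_pos_left h4 hz3
  rw [r1, ← map_mul, r2, map_mul, map_mul, hF1] at hlt
  exact absurd hlt (not_lt.2 (by gcongr))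

end KumSys

end FAUnram
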