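import Fermat.Agent.Unram.Kummer
import Fermat.Agent.Unram.EOne
import Fermat.Agent.Unram.Close
import Fermat.Agent.Unram.Nodal

/-!
# S05 package E: inertia fixes the `p`-torsion (good and nodal reduction)
-/

set_option autoImplicit false
set_option linter.unusedVariables false
set_option linter.unusedTactic false
set_option linter.unreachableTactic false

namespace FAUnram

open WeierstrassCurve WeierstrassCurve.Affine

variable {K : Type*} [Field K] [DecidableEq K]
  {Γ₀ : Type*} [LinearOrderedCommGroupWithZero Γ₀]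

theorem kumSys_isInt (W : WeierstrassCurve.Affine K) (v : Valuation K Γ₀) (e : K) (he : v e ≤ 1)
    (h₁ : v W.a₁ ≤ 1) (h₂ : v W.a₂ ≤ 1) (h₃ : v W.a₃ ≤ 1) (h₄ : v W.a₄ ≤ 1) (h₆ : v W.a₆ ≤ 1) :
    (kumSys W e).IsInt v := by
  have he' : e ∈ v.integer := he
  have h₁' : W.a₁ ∈ v.integer := h₁
  have h₂' : W.a₂ ∈ v.integer := h₂
  have h₃' : W.a₃ ∈ v.integer := h₃
  have h₄' : W.a₄ ∈ v.integer := h₄
  have h₆' : W.a₆ ∈ v.integer := h₆
  refine ⟨?_, ?_, ?_, ?_⟩
  · show W.b₂ + 12 * e ∈ v.integer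
    unfold WeierstrassCurve.b₂
    repeat' first
      | assumption
      | exact ofNat_mem _ _
      | apply add_mem
      | apply sub_mem
      | apply mul_mem
      | apply neg_mem
      | apply pow_mem
  · show W.b₄ + e * W.b₂ + 6 * e ^ 2 ∈ v.integer
    unfold WeierstrassCurve.b₂ WeierstrassCurve.b₄
    repeat' first
      | assumption
      | exact ofNat_mem _ _
      | apply add_mem
      | apply sub_mem
      | apply mul_mem
      | apply neg_mem
      | apply pow_mem
  · show W.b₆ + 2 * e * W.b₄ + e ^ 2 * W.b₂ + 4 * e ^ 3 ∈ v.integer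
    unfold WeierstrassCurve.b₂ WeierstrassCurve.b₄ WeierstrassCurve.b₆
    repeat' first
      | assumption
      | exact ofNat_mem _ _
      | apply add_mem
      | apply sub_mem
      | apply mul_mem
      | apply neg_mem
      | apply pow_mem
  · show W.b₈ + 3 * e * W.b₆ + 3 * e ^ 2 * W.b₄ + e ^ 3 * W.b₂ + 3 * e ^ 4 ∈ v.integer
    unfold WeierstrassCurve.b₂ WeierstrassCurve.b₄ WeierstrassCurve.b₆ WeierstrassCurve.b₈
    repeat' first
      | assumption
      | exact ofNat_mem _ _
      | apply add_mem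
      | apply sub_mem
      | apply mul_mem
      | apply neg_mem
      | apply pow_mem

omit [DecidableEq K] in
/-- the `y`-coordinate of a point with integral `x`-coordinate is integral. -/
theorem v_y_le_one (W : WeierstrassCurve.Affine K) (v : Valuation K Γ₀)
    (h₁ : v W.a₁ ≤ 1) (h₂ : v W.a₂ ≤ 1) (h₃ : v W.a₃ ≤ 1) (h₄ : v W.a₄ ≤ 1) (h₆ : v W.a₆ ≤ 1)
    {x y : K} (h : W.Equation x y) (hx : v x ≤ 1) : v y ≤ 1 := by
  by_contra hy
  rw [not_le] at hy
  have hy0 : 0 < v y := zero_lt_one.trans hy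
  have e1 := (W.equation_iff x y).1 h
  have e2 : y * y = (x ^ 3 + W.a₂ * x ^ 2 + W.a₄ * x + W.a₆) - (W.a₁ * x + W.a₃) * y := by
    linear_combination e1
  have hx' : x ∈ v.integer := hx
  have h₁' : W.a₁ ∈ v.integer := h₁
  have h₂' : W.a₂ ∈ v.integer := h₂
  have h₃' : W.a₃ ∈ v.integer := h₃
  have h₄' : W.a₄ ∈ v.integer := h₄
  have h₆' : W.a₆ ∈ v.integer := h₆
  have k1 : v (x ^ 3 + W.a₂ * x ^ 2 + W.a₄ * x + W.a₆) ≤ 1 := by
    show x ^ 3 + W.a₂ * x ^ 2 + W.a₄ * x + W.a₆ ∈ v.integer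
    repeat' first
      | assumption
      | exact ofNat_mem _ _
      | apply add_mem
      | apply sub_mem
      | apply mul_mem
      | apply neg_mem
      | apply pow_mem
  have k2 : v (W.a₁ * x + W.a₃) ≤ 1 := by
    show W.a₁ * x + W.a₃ ∈ v.integer
    repeat' first
      | assumption
      | exact ofNat_mem _ _
      | apply add_mem
      | apply sub_mem
      | apply mul_mem
      | apply neg_mem
      | apply pow_mem
  have k3 : v (y * y) ≤ v y := by
    rw [e2]
    refine Valuation.map_sub_le v (k1.trans hy.le) ?_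
    rw [map_mul]
    calc v (W.a₁ * x + W.a₃) * v y ≤ 1 * v y := by gcongr
      _ = v y := one_mul _
  rw [map_mul] at k3
  exact absurd (lt_mul_of_one_lt_left hy0 hy) (not_lt.2 k3)

omit [DecidableEq K] in
theorem disc_identity (W : WeierstrassCurve K) (x : K) :
    (-48 * x ^ 2 - 8 * W.b₂ * x + W.b₂ ^ 2 - 32 * W.b₄) *
        (x ^ 4 - W.b₄ * x ^ 2 - 2 * W.b₆ * x - W.b₈) +
      (12 * x ^ 3 - W.b₂ * x ^ 2 - 10 * W.b₄ * x + W.b₂ * W.b₄ - 27 * W.b₆) *
        (4 * x ^ 3 + W.b₂ * x ^ 2 + 2 * W.b₄ * x + W.b₆) = W.Δ := by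
  rw [WeierstrassCurve.Δ]
  linear_combination (12 * x ^ 2 + 2 * W.b₂ * x + 8 * W.b₄) * W.b_relation

omit [DecidableEq K] in
theorem some_eq_some (W : WeierstrassCurve.Affine K) {x y x' y' : K} (h : W.Nonsingular x y)
    (h' : W.Nonsingular x' y') (hx : x' = x) (hy : y' = y) :
    Point.some x' y' h' = Point.some x y h := by
  subst hx hy
  rfl

/-- E1 (good reduction). -/
theorem fixed_of_good (W : WeierstrassCurve.Affine K) (v : Valuation K Γ₀)
    (h₁ : v W.a₁ ≤ 1) (h₂ : v W.a₂ ≤ 1) (h₃ : v W.a₃ ≤ 1) (h₄ : v W.a₄ ≤ 1) (h₆ : v W.a₆ ≤ 1)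
    (hΔ : v W.Δ = 1)
    (σ : K →+* K) (hσ : ∀ z, v z ≤ 1 → v (σ z - z) < 1)
    (φ : W.Point →+ W.Point)
    (hφ : ∀ x y h, ∃ h', φ (Point.some x y h) = Point.some (σ x) (σ y) h')
    (p : ℕ) (hp : v (p : K) = 1) (P : W.Point) (hP : p • P = 0) : φ P = P := by
  have he : v (0 : K) ≤ 1 := by rw [map_zero]; exact zero_le
  have hInt := kumSys_isInt W v 0 he h₁ h₂ h₃ h₄ h₆
  cases P with
  | zero => exact map_zero φ
  | some x y h =>
    have hnE1 : ¬ (kumSys W 0).E1 v (Point.some x y h) := fun hE =>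
      Point.some_ne_zero h ((kumSys W 0).eq_zero_of_E1_of_nsmul v hInt hE p hp hP)
    have hx : v x ≤ 1 := by
      rw [KumSys.E1, kumSys_X_some, kumSys_Z_some, map_one, sub_zero, not_lt] at hnE1
      exact hnE1
    have hy : v y ≤ 1 := v_y_le_one W v h₁ h₂ h₃ h₄ h₆ h.1 hx
    obtain ⟨h', hφ'⟩ := hφ x y h
    have hx' : x ∈ v.integer := hx
    have hy' : y ∈ v.integer := hy
    have h₁' : W.a₁ ∈ v.integer := h₁
    have h₂' : W.a₂ ∈ v.integer := h₂
    have h₃' : W.a₃ ∈ v.integer := h₃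
    have h₄' : W.a₄ ∈ v.integer := h₄
    have h₆' : W.a₆ ∈ v.integer := h₆
    have hns : v (2 * y + W.a₁ * x + W.a₃) = 1 ∨
        v (F0 (kumSys W 0).b₄ (kumSys W 0).b₆ (kumSys W 0).b₈ (x - 0) 1 (x - 0) 1) = 1 := by
      by_cases hη : v (2 * y + W.a₁ * x + W.a₃) = 1
      · exact Or.inl hη
      · right
        have hη1 : v (2 * y + W.a₁ * x + W.a₃) ≤ 1 := by
          show 2 * y + W.a₁ * x + W.a₃ ∈ v.integer
          repeat' first
            | assumption
            | exact ofNat_mem _ _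
            | apply add_mem
            | apply sub_mem
            | apply mul_mem
            | apply neg_mem
            | apply pow_mem
        have hηlt : v (2 * y + W.a₁ * x + W.a₃) < 1 := lt_of_le_of_ne hη1 hη
        have eF : F0 (kumSys W 0).b₄ (kumSys W 0).b₆ (kumSys W 0).b₈ (x - 0) 1 (x - 0) 1 =
            x ^ 4 - W.b₄ * x ^ 2 - 2 * W.b₆ * x - W.b₈ := by
          simp only [kumSys, F0]; ring
        rw [eF]
        have hid := disc_identity W x
        rw [← eta_sq_eq W h.1] at hid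
        have hb₂ : W.b₂ ∈ v.integer := by
          unfold WeierstrassCurve.b₂
          repeat' first
            | assumption
            | exact ofNat_mem _ _
            | apply add_mem
            | apply sub_mem
            | apply mul_mem
            | apply neg_mem
            | apply pow_mem
        have hb₄ : W.b₄ ∈ v.integer := by
          unfold WeierstrassCurve.b₄
          repeat' first
            | assumption
            | exact ofNat_mem _ _
            | apply add_mem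
            | apply sub_mem
            | apply mul_mem
            | apply neg_mem
            | apply pow_mem
        have hb₆ : W.b₆ ∈ v.integer := by
          unfold WeierstrassCurve.b₆
          repeat' first
            | assumption
            | exact ofNat_mem _ _
            | apply add_mem
            | apply sub_mem
            | apply mul_mem
            | apply neg_mem
            | apply pow_mem
        have hb₈ : W.b₈ ∈ v.integer := by
          unfold WeierstrassCurve.b₈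
          repeat' first
            | assumption
            | exact ofNat_mem _ _
            | apply add_mem
            | apply sub_mem
            | apply mul_mem
            | apply neg_mem
            | apply pow_mem
        have c0 : v (-48 * x ^ 2 - 8 * W.b₂ * x + W.b₂ ^ 2 - 32 * W.b₄) ≤ 1 := by
          show -48 * x ^ 2 - 8 * W.b₂ * x + W.b₂ ^ 2 - 32 * W.b₄ ∈ v.integer
          repeat' first
            | assumption
            | exact ofNat_mem _ _
            | apply add_mem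
            | apply sub_mem
            | apply mul_mem
            | apply neg_mem
            | apply pow_mem
        have c1 : v (12 * x ^ 3 - W.b₂ * x ^ 2 - 10 * W.b₄ * x + W.b₂ * W.b₄ - 27 * W.b₆) ≤ 1 := by
          show 12 * x ^ 3 - W.b₂ * x ^ 2 - 10 * W.b₄ * x + W.b₂ * W.b₄ - 27 * W.b₆ ∈ v.integer
          repeat' first
            | assumption
            | exact ofNat_mem _ _
            | apply add_mem
            | apply sub_mem
            | apply mul_mem
            | apply neg_mem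
            | apply pow_mem
        have cF : v (x ^ 4 - W.b₄ * x ^ 2 - 2 * W.b₆ * x - W.b₈) ≤ 1 := by
          show x ^ 4 - W.b₄ * x ^ 2 - 2 * W.b₆ * x - W.b₈ ∈ v.integer
          repeat' first
            | assumption
            | exact ofNat_mem _ _
            | apply add_mem
            | apply sub_mem
            | apply mul_mem
            | apply neg_mem
            | apply pow_mem
        by_contra hne
        have hlt : v (x ^ 4 - W.b₄ * x ^ 2 - 2 * W.b₆ * x - W.b₈) < 1 := lt_of_le_of_ne cF hne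
        have : v W.Δ < 1 := by
          rw [← hid]
          refine Valuation.map_add_lt v ?_ ?_
          · rw [map_mul]
            exact mul_lt_one_of_nonneg_of_lt_one_right c0 zero_le hlt
          · rw [map_mul, map_pow]
            refine mul_lt_one_of_nonneg_of_lt_one_right c1 zero_le ?_
            exact pow_lt_one₀ zero_le hηlt (by norm_num)
        exact absurd hΔ this.ne
    have hE1 := close_sub_E1 W v 0 he h₁ h₂ h₃ h₄ h₆ h h' hx hy (hσ x hx) (hσ y hy) hns
    rw [← hφ'] at hE1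
    have hpQ : p • (φ (Point.some x y h) - Point.some x y h) = 0 := by
      rw [smul_sub, ← map_nsmul, hP, map_zero, sub_zero]
    exact sub_eq_zero.1 ((kumSys W 0).eq_zero_of_E1_of_nsmul v hInt hE1 p hp hpQ)

/-- points with nonsingular reduction are moved by inertia inside `E1` (nodal case). -/
theorem sub_E1_of_E0 (W : WeierstrassCurve.Affine K) (v : Valuation K Γ₀)
    (h₁ : v W.a₁ ≤ 1) (h₂ : v W.a₂ ≤ 1) (h₃ : v W.a₃ ≤ 1) (h₄ : v W.a₄ ≤ 1) (h₆ : v W.a₆ ≤ 1)
    (e a b : K) (he : v e ≤ 1) (hN : (kumSys W e).IsNodal v a b)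
    (σ : K →+* K) (hσ : ∀ z, v z ≤ 1 → v (σ z - z) < 1) (hσv : ∀ z, v (σ z) = v z)
    (hσe : σ e = e)
    (φ : W.Point →+ W.Point)
    (hφ : ∀ x y h, ∃ h', φ (Point.some x y h) = Point.some (σ x) (σ y) h')
    {T : W.Point} (hT : (kumSys W e).E0 v T) : (kumSys W e).E1 v (φ T - T) := by
  have hInt := kumSys_isInt W v e he h₁ h₂ h₃ h₄ h₆
  cases T with
  | zero =>
    have : φ Point.zero - Point.zero = (0 : W.Point) := by
      rw [← Point.zero_def, map_zero, sub_zero]
    rw [this, KumSys.E1, (kumSys W e).Z_zero, (kumSys W e).X_zero, map_zero, map_one]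
    exact zero_lt_one
  | some x y h =>
    obtain ⟨h', hφ'⟩ := hφ x y h
    rw [KumSys.E0, kumSys_X_some, kumSys_Z_some, map_one] at hT
    rcases hT.lt_or_eq with hlt | heq
    · have hE : (kumSys W e).E1 v (Point.some x y h) := by
        rw [KumSys.E1, kumSys_X_some, kumSys_Z_some, map_one]; exact hlt
      have hE' : (kumSys W e).E1 v (φ (Point.some x y h)) := by
        rw [hφ', KumSys.E1, kumSys_X_some, kumSys_Z_some, map_one, ← hσe, ← map_sub, hσv]
        exact hlt
      exact ((kumSys W e).E1_add_sub v hInt hE' hE).2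
    · have hx : v x ≤ 1 := by
        have : x = (x - e) + e := by ring
        rw [this]
        exact Valuation.map_add_le v heq.symm.le he
      have hy : v y ≤ 1 := v_y_le_one W v h₁ h₂ h₃ h₄ h₆ h.1 hx
      have hns : v (F0 (kumSys W e).b₄ (kumSys W e).b₆ (kumSys W e).b₈ (x - e) 1 (x - e) 1) = 1 := by
        rw [hN.hb₄, hN.hb₆, hN.hb₈]
        have : F0 (2 * b) 0 (-b ^ 2) (x - e) 1 (x - e) 1 = ((x - e) ^ 2 - b) ^ 2 := by
          unfold F0; ring
        rw [this, map_pow, Valuation.map_sub_eq_of_lt_left v (by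
          rw [map_pow, ← heq, one_pow]; exact hN.vb), map_pow, ← heq, one_pow, one_pow]
      rw [hφ']
      exact close_sub_E1 W v e he h₁ h₂ h₃ h₄ h₆ h h' hx hy (hσ x hx) (hσ y hy) (Or.inr hns)

/-- E2 (multiplicative reduction, `p ∣ v(Δ)`). -/
theorem fixed_of_nodal [IsAlgClosed K] (W : WeierstrassCurve.Affine K) (v : Valuation K Γ₀)
    (h₁ : v W.a₁ ≤ 1) (h₂ : v W.a₂ ≤ 1) (h₃ : v W.a₃ ≤ 1) (h₄ : v W.a₄ ≤ 1) (h₆ : v W.a₆ ≤ 1)
    (e a b w : K) (he : v e ≤ 1) (hN : (kumSys W e).IsNodal v a b)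
    (σ : K →+* K) (hσ : ∀ z, v z ≤ 1 → v (σ z - z) < 1) (hσv : ∀ z, v (σ z) = v z)
    (hσ₁ : σ W.a₁ = W.a₁) (hσ₃ : σ W.a₃ = W.a₃) (hσe : σ e = e) (hσa : σ a = a) (hσb : σ b = b)
    (hσw : σ w = w)
    (φ : W.Point →+ W.Point)
    (hφ : ∀ x y h, ∃ h', φ (Point.some x y h) = Point.some (σ x) (σ y) h')
    (p : ℕ) (hp : v (p : K) = 1) (hodd : Odd p) (hw : v b = v w ^ p)
    (P : W.Point) (hP : p • P = 0) : φ P = P := by
  have hInt := kumSys_isInt W v e he h₁ h₂ h₃ h₄ h₆
  have hpQ : p • (φ P - P) = 0 := by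
    rw [smul_sub, ← map_nsmul, hP, map_zero, sub_zero]
  have key : ∀ T : W.Point, (kumSys W e).E0 v T → (kumSys W e).E1 v (φ T - T) := fun T hT =>
    sub_E1_of_E0 W v h₁ h₂ h₃ h₄ h₆ e a b he hN σ hσ hσv hσe φ hφ hT
  suffices hE1 : (kumSys W e).E1 v (φ P - P) from
    sub_eq_zero.1 ((kumSys W e).eq_zero_of_E1_of_nsmul v hInt hE1 p hp hpQ)
  by_cases hE0 : (kumSys W e).E0 v P
  · exact key P hE0
  obtain ⟨hb, j, hj⟩ := hN.torsion_val hodd hP hE0
  have hp0 : p ≠ 0 := by rintro rfl; exact absurd hodd (by decide)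
  have hvb0 : v b ≠ 0 := (Valuation.ne_zero_iff v).2 hN.b0
  have hw0 : w ≠ 0 := by
    rintro rfl
    rw [map_zero, zero_pow hp0] at hw
    exact hvb0 hw
  have hZ : (kumSys W e).Z P = 1 := KumSys.Z_eq_one_of_not_E0 hE0
  have hξ1 : v ((kumSys W e).X P) < 1 := by
    have := hE0
    rw [KumSys.E0, hZ, map_one, not_le] at this
    exact this
  -- the valuation of `ξ(P)` is that of `c₀ = w ^ (2 j)`
  set c₀ : K := w ^ (2 * j) with hc₀
  have hvc : v c₀ = v ((kumSys W e).X P) := by
    have h1 : v ((kumSys W e).X P) ^ p = (v c₀) ^ p := by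
      rw [hj, hw, hc₀, map_zpow₀, ← zpow_natCast (v w) p, ← zpow_natCast (v w ^ (2 * j)) p,
        ← zpow_mul, ← zpow_mul, mul_comm]
    exact ((pow_left_inj₀ zero_le zero_le hp0).1 h1).symm
  have hc0 : c₀ ≠ 0 := zpow_ne_zero _ hw0
  have hσc : σ c₀ = c₀ := by rw [hc₀, map_zpow₀, hσw]
  have h2ne : (2 : K) ≠ 0 := by
    intro h; have := hN.v2; rw [h, map_zero] at this; exact zero_ne_one this
  -- the square root
  set g₀ : K := c₀ + a + b / c₀ with hg₀
  have hvg : v g₀ = 1 := by
    have h1 : v (b / c₀) < 1 := by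
      rw [map_div₀, hvc, div_lt_one₀ (lt_of_le_of_lt zero_le hb)]
      exact hb
    have h2 : v (c₀ + a) = 1 := by
      rw [← hN.va]
      exact Valuation.map_add_eq_of_lt_right v (by rw [hN.va, hvc]; exact hξ1)
    rw [hg₀, ← h2]
    exact Valuation.map_add_eq_of_lt_left v (by rw [h2]; exact h1)
  obtain ⟨θ, hθ⟩ := IsAlgClosed.exists_pow_nat_eq g₀ (n := 2) (by norm_num)
  have hvθ : v θ = 1 := by
    have : v θ ^ 2 = 1 ^ 2 := by rw [← map_pow, hθ, hvg, one_pow]
    exact (pow_left_inj₀ zero_le zero_le (by norm_num)).1 this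
  have hθ0 : θ ≠ 0 := by
    rintro rfl; rw [map_zero] at hvθ; exact zero_ne_one hvθ
  have hσg : σ g₀ = g₀ := by rw [hg₀, map_add, map_add, map_div₀, hσc, hσa, hσb]
  have hσθ : σ θ = θ := by
    have h1 : σ θ ^ 2 = θ ^ 2 := by rw [← map_pow, hθ, hσg]
    rcases sq_eq_sq_iff_eq_or_eq_neg.1 h1 with h | h
    · exact h
    · exfalso
      have h2 := hσ θ hvθ.le
      rw [h, show -θ - θ = -(2 * θ) by ring, Valuation.map_neg, map_mul, hN.v2, hvθ, one_mul] at h2
      exact lt_irrefl _ h2
  -- the auxiliary point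
  set xR : K := e + c₀ with hxR
  set yR : K := c₀ * θ - (W.a₁ * xR + W.a₃) / 2 with hyR
  have hη : 2 * yR + W.a₁ * xR + W.a₃ = 2 * c₀ * θ := by
    rw [hyR]; field_simp; ring
  have hb₂ : W.b₂ + 12 * e = 4 * a := hN.hb₂
  have hb₄ : W.b₄ + e * W.b₂ + 6 * e ^ 2 = 2 * b := hN.hb₄
  have hb₆ : W.b₆ + 2 * e * W.b₄ + e ^ 2 * W.b₂ + 4 * e ^ 3 = 0 := hN.hb₆
  have hf : (2 * c₀ * θ) ^ 2 = 4 * xR ^ 3 + W.b₂ * xR ^ 2 + 2 * W.b₄ * xR + W.b₆ := by
    have h1 : c₀ * g₀ = c₀ ^ 2 + a * c₀ + b := by rw [hg₀]; field_simp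
    have h2 : (2 * c₀ * θ) ^ 2 = 4 * c₀ * (c₀ * g₀) := by rw [← hθ]; ring
    rw [h2, h1, hxR]
    linear_combination (-c₀ ^ 2) * hb₂ - 2 * c₀ * hb₄ - hb₆
  have hEq : W.Equation xR yR := by
    rw [W.equation_iff]
    rw [← hη] at hf
    simp only [WeierstrassCurve.b₂, WeierstrassCurve.b₄, WeierstrassCurve.b₆] at hf
    have h4 : (4 : K) ≠ 0 := by
      rw [show (4 : K) = 2 * 2 by norm_num]; exact mul_ne_zero h2ne h2ne
    apply mul_left_cancel₀ h4
    linear_combination hf
  have hNs : W.Nonsingular xR yR := by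
    rw [W.nonsingular_iff]
    refine ⟨hEq, Or.inr ?_⟩
    intro hcon
    have : 2 * yR + W.a₁ * xR + W.a₃ = 0 := by linear_combination hcon
    rw [hη] at this
    exact mul_ne_zero (mul_ne_zero h2ne hc0) hθ0 this
  set R : W.Point := Point.some xR yR hNs with hR
  have hσx : σ xR = xR := by rw [hxR, map_add, hσe, hσc]
  have hσy : σ yR = yR := by
    rw [hyR, map_sub, map_mul, map_div₀, map_add, map_mul, hσc, hσθ, hσ₁, hσ₃, hσx, map_ofNat]
  have hφR : φ R = R := by
    obtain ⟨h', hφ'⟩ := hφ xR yR hNs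
    rw [hR, hφ']
    exact some_eq_some W hNs h' hσx hσy
  have hXR : (kumSys W e).X R = c₀ := by rw [hR, kumSys_X_some, hxR]; ring
  rcases hN.E0_sub_or_add hE0 hb (Point.some_ne_zero hNs) (by rw [hXR, hvc]) with h | h
  · have := key _ h
    rwa [map_sub, hφR, sub_sub_sub_cancel_right] at this
  · have := key _ h
    rwa [map_add, hφR, add_sub_add_right_eq_sub] at this

end FAUnram
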