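import Mathlib

/-!
# S05: abstract Kummer systems (x-only arithmetic on a Weierstrass curve)

Definitions shared by all packages of the proof of S05.
-/

set_option autoImplicit false

namespace FAUnram

variable {K : Type*} [Field K]

/-- numerator of `x(P+Q) * x(P-Q)` (bihomogeneous of bidegree (2,2)). -/
def F0 (b₄ b₆ b₈ X₁ Z₁ X₂ Z₂ : K) : K :=
  (X₁ * X₂) ^ 2 - b₄ * (X₁ * X₂) * (Z₁ * Z₂) - b₆ * (X₁ * Z₂ + X₂ * Z₁) * (Z₁ * Z₂)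
    - b₈ * (Z₁ * Z₂) ^ 2

/-- numerator of `x(P+Q) + x(P-Q)`. -/
def F1 (b₂ b₄ b₆ X₁ Z₁ X₂ Z₂ : K) : K :=
  2 * (X₁ * Z₂ + X₂ * Z₁) * (X₁ * X₂) + b₂ * (X₁ * X₂) * (Z₁ * Z₂)
    + b₄ * (X₁ * Z₂ + X₂ * Z₁) * (Z₁ * Z₂) + b₆ * (Z₁ * Z₂) ^ 2

/-- common denominator. -/
def F2 (X₁ Z₁ X₂ Z₂ : K) : K := (X₁ * Z₂ - X₂ * Z₁) ^ 2

/-- An abstract Kummer system: an abelian group with an "x-coordinate" `(X : Z)` with values in
`ℙ¹(K)` satisfying the biquadratic addition-subtraction relations of the curve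
`η² = 4x³ + b₂x² + 2b₄x + b₆`. -/
structure KumSys (G : Type*) [AddCommGroup G] (K : Type*) [Field K] where
  b₂ : K
  b₄ : K
  b₆ : K
  b₈ : K
  X : G → K
  Z : G → K
  X_zero : X 0 = 1
  Z_zero : Z 0 = 0
  Z_of_ne : ∀ P, P ≠ 0 → Z P = 1
  rel : ∀ P Q, ∃ c : K, c ≠ 0 ∧
    X (P + Q) * X (P - Q) = c * F0 b₄ b₆ b₈ (X P) (Z P) (X Q) (Z Q) ∧
    X (P + Q) * Z (P - Q) + X (P - Q) * Z (P + Q) = c * F1 b₂ b₄ b₆ (X P) (Z P) (X Q) (Z Q) ∧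
    Z (P + Q) * Z (P - Q) = c * F2 (X P) (Z P) (X Q) (Z Q)

namespace KumSys

variable {G : Type*} [AddCommGroup G] {Γ₀ : Type*} [LinearOrderedCommGroupWithZero Γ₀]

/-- integrality of the coefficients. -/
def IsInt (S : KumSys G K) (v : Valuation K Γ₀) : Prop :=
  v S.b₂ ≤ 1 ∧ v S.b₄ ≤ 1 ∧ v S.b₆ ≤ 1 ∧ v S.b₈ ≤ 1

/-- the "kernel of reduction": `P = 0` or `x(P)` is not integral. -/
def E1 (S : KumSys G K) (v : Valuation K Γ₀) (P : G) : Prop := v (S.Z P) < v (S.X P)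

/-- `P = 0` or `x(P)` is not in the maximal ideal
(for a node at `x = 0`: nonsingular reduction). -/
def E0 (S : KumSys G K) (v : Valuation K Γ₀) (P : G) : Prop := v (S.Z P) ≤ v (S.X P)

/-- The system comes from `η² = 4 x (x² + a x + b)`. -/
structure IsNodal (S : KumSys G K) (v : Valuation K Γ₀) (a b : K) : Prop where
  hb₂ : S.b₂ = 4 * a
  hb₄ : S.b₄ = 2 * b
  hb₆ : S.b₆ = 0
  hb₈ : S.b₈ = -b ^ 2
  va : v a = 1
  v2 : v 2 = 1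
  vb : v b < 1
  b0 : b ≠ 0

end KumSys

end FAUnram
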