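import Fermat.Agent.Unram.Defs

/-!
# S05 package A: the Kummer relations for the Mathlib group law
-/

set_option autoImplicit false

namespace FAUnram

open WeierstrassCurve WeierstrassCurve.Affine

variable {K : Type*} [Field K] [DecidableEq K]

/-- The chord formula for the `x`-coordinate, cleared of denominators. -/
theorem addX_slope_mul (W : WeierstrassCurve.Affine K) {x₁ x₂ : K} (y₁ y₂ : K) (hx : x₁ ≠ x₂) :
    W.addX x₁ x₂ (W.slope x₁ x₂ y₁ y₂) * (x₁ - x₂) ^ 2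
      = (y₁ - y₂) ^ 2 + W.a₁ * (y₁ - y₂) * (x₁ - x₂) - (W.a₂ + x₁ + x₂) * (x₁ - x₂) ^ 2 := by
  have hD : x₁ - x₂ ≠ 0 := sub_ne_zero.2 hx
  rw [Affine.slope_of_X_ne hx, Affine.addX]
  field_simp
  ring

/-- The tangent formula for the `x`-coordinate, cleared of denominators. -/
theorem addX_slope_self_mul (W : WeierstrassCurve.Affine K) {x y : K} (hy : y ≠ W.negY x y) :
    W.addX x x (W.slope x x y y) * (2 * y + W.a₁ * x + W.a₃) ^ 2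
      = (3 * x ^ 2 + 2 * W.a₂ * x + W.a₄ - W.a₁ * y) ^ 2
        + W.a₁ * (3 * x ^ 2 + 2 * W.a₂ * x + W.a₄ - W.a₁ * y) * (2 * y + W.a₁ * x + W.a₃)
        - (W.a₂ + x + x) * (2 * y + W.a₁ * x + W.a₃) ^ 2 := by
  have hd : y - W.negY x y ≠ 0 := sub_ne_zero.2 hy
  have he : y - W.negY x y = 2 * y + W.a₁ * x + W.a₃ := by simp only [Affine.negY]; ring
  rw [Affine.slope_of_Y_ne rfl hy, Affine.addX, he]
  rw [he] at hd
  generalize 2 * y + W.a₁ * x + W.a₃ = η at hd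
  generalize 3 * x ^ 2 + 2 * W.a₂ * x + W.a₄ - W.a₁ * y = n
  field_simp
  ring

omit [DecidableEq K] in
/-- `η² = 4x³ + b₂x² + 2b₄x + b₆` on the curve. -/
theorem eta_sq_eq (W : WeierstrassCurve.Affine K) {x y : K} (h : W.Equation x y) :
    (2 * y + W.a₁ * x + W.a₃) ^ 2 = 4 * x ^ 3 + W.b₂ * x ^ 2 + 2 * W.b₄ * x + W.b₆ := by
  have h1 := (W.equation_iff x y).1 h
  simp only [WeierstrassCurve.b₂, WeierstrassCurve.b₄, WeierstrassCurve.b₆]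
  linear_combination 4 * h1

omit [DecidableEq K] in
/-- The numerator of the duplication formula. -/
theorem dup_num_eq (W : WeierstrassCurve.Affine K) {x y : K} (h : W.Equation x y) :
    (3 * x ^ 2 + 2 * W.a₂ * x + W.a₄ - W.a₁ * y) ^ 2
        + W.a₁ * (3 * x ^ 2 + 2 * W.a₂ * x + W.a₄ - W.a₁ * y) * (2 * y + W.a₁ * x + W.a₃)
        - (W.a₂ + x + x) * (2 * y + W.a₁ * x + W.a₃) ^ 2
      = x ^ 4 - W.b₄ * x ^ 2 - 2 * W.b₆ * x - W.b₈ := by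
  have h1 := (W.equation_iff x y).1 h
  simp only [WeierstrassCurve.b₄, WeierstrassCurve.b₆, WeierstrassCurve.b₈]
  linear_combination (-W.a₁ ^ 2 - 4 * W.a₂ - 8 * x) * h1

/-- unshifted sum formula -/
theorem addX_add_addX (W : WeierstrassCurve.Affine K) {x₁ y₁ x₂ y₂ : K} (h₁ : W.Equation x₁ y₁)
    (h₂ : W.Equation x₂ y₂) (hx : x₁ ≠ x₂) :
    (W.addX x₁ x₂ (W.slope x₁ x₂ y₁ y₂) + W.addX x₁ x₂ (W.slope x₁ x₂ y₁ (W.negY x₂ y₂)))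
        * (x₁ - x₂) ^ 2
      = F1 W.b₂ W.b₄ W.b₆ x₁ 1 x₂ 1 := by
  have e1 := (W.equation_iff x₁ y₁).1 h₁
  have e2 := (W.equation_iff x₂ y₂).1 h₂
  rw [add_mul, addX_slope_mul W y₁ y₂ hx, addX_slope_mul W y₁ (W.negY x₂ y₂) hx]
  simp only [F1, Affine.negY, WeierstrassCurve.b₂, WeierstrassCurve.b₄, WeierstrassCurve.b₆]
  linear_combination 2 * e1 + 2 * e2

/-- unshifted product formula -/
theorem addX_mul_addX (W : WeierstrassCurve.Affine K) {x₁ y₁ x₂ y₂ : K} (h₁ : W.Equation x₁ y₁)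
    (h₂ : W.Equation x₂ y₂) (hx : x₁ ≠ x₂) :
    (W.addX x₁ x₂ (W.slope x₁ x₂ y₁ y₂) * W.addX x₁ x₂ (W.slope x₁ x₂ y₁ (W.negY x₂ y₂)))
        * (x₁ - x₂) ^ 2
      = F0 W.b₄ W.b₆ W.b₈ x₁ 1 x₂ 1 := by
  have e1 := (W.equation_iff x₁ y₁).1 h₁
  have e2 := (W.equation_iff x₂ y₂).1 h₂
  have hD : (x₁ - x₂) ^ 2 ≠ 0 := pow_ne_zero 2 (sub_ne_zero.2 hx)
  apply mul_right_cancel₀ hD
  have hp := addX_slope_mul W y₁ y₂ hx
  have hm := addX_slope_mul W y₁ (W.negY x₂ y₂) hx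
  have : (W.addX x₁ x₂ (W.slope x₁ x₂ y₁ y₂) * W.addX x₁ x₂ (W.slope x₁ x₂ y₁ (W.negY x₂ y₂)))
        * (x₁ - x₂) ^ 2 * (x₁ - x₂) ^ 2
      = (W.addX x₁ x₂ (W.slope x₁ x₂ y₁ y₂) * (x₁ - x₂) ^ 2)
        * (W.addX x₁ x₂ (W.slope x₁ x₂ y₁ (W.negY x₂ y₂)) * (x₁ - x₂) ^ 2) := by ring
  rw [this, hp, hm]
  simp only [F0, Affine.negY, WeierstrassCurve.b₄, WeierstrassCurve.b₆, WeierstrassCurve.b₈]
  linear_combination (W.a₁ ^ 2 * x₁ * x₂ - W.a₁ ^ 2 * x₂ ^ 2 + W.a₁ * W.a₃ * x₁ - W.a₁ * W.a₃ * x₂ + W.a₁ * x₁ * y₁ - 2 * W.a₁ * x₂ * y₂ - W.a₂ * x₁ ^ 2 + 4 * W.a₂ * x₁ * x₂ - 2 * W.a₂ * x₂ ^ 2 + W.a₃ * y₁ - 2 * W.a₃ * y₂ + W.a₄ * x₁ + W.a₆ - x₁ ^ 3 + 2 * x₁ ^ 2 * x₂ + 2 * x₁ * x₂ ^ 2 + y₁ ^ 2 - 2 * x₂ ^ 3 - 2 * y₂ ^ 2) * e1 + (-W.a₁ ^ 2 * x₁ ^ 2 + W.a₁ ^ 2 * x₁ * x₂ - W.a₁ * W.a₃ * x₁ + W.a₁ * W.a₃ * x₂ + W.a₁ * x₂ * y₂ - 4 * W.a₂ * x₁ ^ 2 + 4 * W.a₂ * x₁ * x₂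 - W.a₂ * x₂ ^ 2 + W.a₃ * y₂ - 2 * W.a₄ * x₁ + W.a₄ * x₂ - W.a₆ - 4 * x₁ ^ 3 + 2 * x₁ ^ 2 * x₂ + 2 * x₁ * x₂ ^ 2 - x₂ ^ 3 + y₂ ^ 2) * e2

omit [DecidableEq K] in
/-- behaviour of `F0` under the shift `x ↦ x - e` -/
theorem F0_shift (b₂ b₄ b₆ b₈ e x₁ x₂ : K) :
    F0 (b₄ + e * b₂ + 6 * e ^ 2) (b₆ + 2 * e * b₄ + e ^ 2 * b₂ + 4 * e ^ 3)
        (b₈ + 3 * e * b₆ + 3 * e ^ 2 * b₄ + e ^ 3 * b₂ + 3 * e ^ 4) (x₁ - e) 1 (x₂ - e) 1
      = F0 b₄ b₆ b₈ x₁ 1 x₂ 1 - e * F1 b₂ b₄ b₆ x₁ 1 x₂ 1 + e ^ 2 * F2 x₁ 1 x₂ 1 := by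
  simp only [F0, F1, F2]; ring

omit [DecidableEq K] in
/-- behaviour of `F1` under the shift `x ↦ x - e` -/
theorem F1_shift (b₂ b₄ b₆ e x₁ x₂ : K) :
    F1 (b₂ + 12 * e) (b₄ + e * b₂ + 6 * e ^ 2) (b₆ + 2 * e * b₄ + e ^ 2 * b₂ + 4 * e ^ 3)
        (x₁ - e) 1 (x₂ - e) 1
      = F1 b₂ b₄ b₆ x₁ 1 x₂ 1 - 2 * e * F2 x₁ 1 x₂ 1 := by
  simp only [F1, F2]; ring

omit [DecidableEq K] in
theorem F2_shift (e x₁ x₂ : K) : F2 (x₁ - e) 1 (x₂ - e) 1 = F2 x₁ 1 x₂ 1 := by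
  simp only [F2]; ring

/-- The relation for `(P, P)` written for the pair `(2P, 0)`. -/
theorem kummer_rel_self (W : WeierstrassCurve.Affine K) (e : K) {x y : K}
    (h : W.Nonsingular x y) :
    ∃ c : K, c ≠ 0 ∧
    ((Point.some x y h + Point.some x y h).xRep 0
        - e * (Point.some x y h + Point.some x y h).xRep 1) =
      c * F0 (W.b₄ + e * W.b₂ + 6 * e ^ 2) (W.b₆ + 2 * e * W.b₄ + e ^ 2 * W.b₂ + 4 * e ^ 3)
        (W.b₈ + 3 * e * W.b₆ + 3 * e ^ 2 * W.b₄ + e ^ 3 * W.b₂ + 3 * e ^ 4)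
        (x - e) 1 (x - e) 1 ∧
    (Point.some x y h + Point.some x y h).xRep 1 =
      c * F1 (W.b₂ + 12 * e) (W.b₄ + e * W.b₂ + 6 * e ^ 2)
        (W.b₆ + 2 * e * W.b₄ + e ^ 2 * W.b₂ + 4 * e ^ 3) (x - e) 1 (x - e) 1 := by
  have hF2 : F2 x 1 x 1 = 0 := by simp [F2]
  have hF1 : F1 W.b₂ W.b₄ W.b₆ x 1 x 1 = (2 * y + W.a₁ * x + W.a₃) ^ 2 := by
    rw [eta_sq_eq W h.1]; simp only [F1]; ring
  have hF0 : F0 W.b₄ W.b₆ W.b₈ x 1 x 1 = (3 * x ^ 2 + 2 * W.a₂ * x + W.a₄ - W.a₁ * y) ^ 2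
        + W.a₁ * (3 * x ^ 2 + 2 * W.a₂ * x + W.a₄ - W.a₁ * y) * (2 * y + W.a₁ * x + W.a₃)
        - (W.a₂ + x + x) * (2 * y + W.a₁ * x + W.a₃) ^ 2 := by
    rw [dup_num_eq W h.1]; simp only [F0]; ring
  rw [F0_shift, F1_shift, hF2, hF1]
  by_cases hy : y = W.negY x y
  · -- `2P = 0`
    have hη : 2 * y + W.a₁ * x + W.a₃ = 0 := by
      simp only [Affine.negY] at hy; linear_combination hy
    have hn : 3 * x ^ 2 + 2 * W.a₂ * x + W.a₄ - W.a₁ * y ≠ 0 := by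
      have := ((W.nonsingular_iff' x y).1 h).2
      rcases this with h' | h'
      · intro h0; apply h'; linear_combination -h0
      · exact absurd hη h'
    rw [Point.add_self_of_Y_eq hy, hF0, hη]
    generalize 3 * x ^ 2 + 2 * W.a₂ * x + W.a₄ - W.a₁ * y = n at hn
    refine ⟨(n ^ 2)⁻¹, inv_ne_zero (pow_ne_zero 2 hn), ?_, ?_⟩
    · simp only [Point.xRep_zero]
      simp
      field_simp
    · simp
  · have hη : 2 * y + W.a₁ * x + W.a₃ ≠ 0 := by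
      intro h0; apply hy; simp only [Affine.negY]; linear_combination h0
    rw [Point.add_self_of_Y_ne hy, hF0, ← addX_slope_self_mul W hy]
    generalize 2 * y + W.a₁ * x + W.a₃ = η at hη
    refine ⟨(η ^ 2)⁻¹, inv_ne_zero (pow_ne_zero 2 hη), ?_, ?_⟩
    · simp only [Point.xRep_some]
      simp
      field_simp
    · simp only [Point.xRep_some]
      simp
      field_simp

/-- Package A.  The addition-subtraction relations on x-coordinates, shifted by `e`. -/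
theorem kummer_rel (W : WeierstrassCurve.Affine K) (e : K) (P Q : W.Point) :
    ∃ c : K, c ≠ 0 ∧
    ((P + Q).xRep 0 - e * (P + Q).xRep 1) * ((P - Q).xRep 0 - e * (P - Q).xRep 1) =
      c * F0 (W.b₄ + e * W.b₂ + 6 * e ^ 2) (W.b₆ + 2 * e * W.b₄ + e ^ 2 * W.b₂ + 4 * e ^ 3)
        (W.b₈ + 3 * e * W.b₆ + 3 * e ^ 2 * W.b₄ + e ^ 3 * W.b₂ + 3 * e ^ 4)
        (P.xRep 0 - e * P.xRep 1) (P.xRep 1) (Q.xRep 0 - e * Q.xRep 1) (Q.xRep 1) ∧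
    ((P + Q).xRep 0 - e * (P + Q).xRep 1) * (P - Q).xRep 1 +
        ((P - Q).xRep 0 - e * (P - Q).xRep 1) * (P + Q).xRep 1 =
      c * F1 (W.b₂ + 12 * e) (W.b₄ + e * W.b₂ + 6 * e ^ 2)
        (W.b₆ + 2 * e * W.b₄ + e ^ 2 * W.b₂ + 4 * e ^ 3)
        (P.xRep 0 - e * P.xRep 1) (P.xRep 1) (Q.xRep 0 - e * Q.xRep 1) (Q.xRep 1) ∧
    (P + Q).xRep 1 * (P - Q).xRep 1 =
      c * F2 (P.xRep 0 - e * P.xRep 1) (P.xRep 1) (Q.xRep 0 - e * Q.xRep 1) (Q.xRep 1) := by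
  rcases P with _ | ⟨x₁, y₁, h₁⟩
  · -- `P = 0`
    rw [← Point.zero_def, zero_add, zero_sub, Point.xRep_neg, Point.xRep_zero]
    refine ⟨1, one_ne_zero, ?_, ?_, ?_⟩ <;> simp [F0, F1, F2] <;> ring
  rcases Q with _ | ⟨x₂, y₂, h₂⟩
  · -- `Q = 0`
    rw [← Point.zero_def, add_zero, sub_zero, Point.xRep_zero]
    refine ⟨1, one_ne_zero, ?_, ?_, ?_⟩ <;> simp [F0, F1, F2] <;> ring
  by_cases hx : x₁ = x₂
  · subst hx
    rcases (Point.X_eq_iff (h₁ := h₁) (h₂ := h₂)).1 rfl with hPQ | hPQ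
    · -- `P = Q`
      rw [← hPQ, sub_self]
      obtain ⟨c, hc, r0, r1⟩ := kummer_rel_self W e h₁
      refine ⟨c, hc, ?_, ?_, ?_⟩
      · rw [Point.xRep_zero, r0]; simp
      · rw [Point.xRep_zero]
        simp only [Point.xRep_some]
        simp only [Matrix.cons_val_zero, Matrix.cons_val_one, Matrix.cons_val_fin_one, mul_zero,
          sub_zero, one_mul, zero_add, mul_one]
        exact r1
      · rw [Point.xRep_zero]; simp [F2]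
    · -- `P = -Q`
      have hQ : Point.some x₁ y₂ h₂ = -Point.some x₁ y₁ h₁ := by rw [hPQ, neg_neg]
      rw [hQ, add_neg_cancel, sub_neg_eq_add, Point.xRep_neg]
      obtain ⟨c, hc, r0, r1⟩ := kummer_rel_self W e h₁
      refine ⟨c, hc, ?_, ?_, ?_⟩
      · rw [Point.xRep_zero, r0]; simp
      · rw [Point.xRep_zero]
        simp only [Point.xRep_some]
        simp only [Matrix.cons_val_zero, Matrix.cons_val_one, Matrix.cons_val_fin_one, mul_zero,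
          sub_zero, one_mul, add_zero, mul_one]
        exact r1
      · rw [Point.xRep_zero]; simp [F2]
  · -- generic case
    have hD : (x₁ - x₂) ^ 2 ≠ 0 := pow_ne_zero 2 (sub_ne_zero.2 hx)
    have hs := addX_add_addX W h₁.1 h₂.1 hx
    have hp := addX_mul_addX W h₁.1 h₂.1 hx
    have hsub : Point.some x₁ y₁ h₁ - Point.some x₂ y₂ h₂
        = Point.some _ _ (nonsingular_add h₁ ((nonsingular_neg ..).mpr h₂)
            fun hxy => hx hxy.left) := by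
      rw [sub_eq_add_neg, Point.neg_some, Point.add_of_X_ne hx]
    rw [hsub, Point.add_of_X_ne hx]
    simp only [Point.xRep_some]
    simp only [Matrix.cons_val_zero, Matrix.cons_val_one, Matrix.cons_val_fin_one, mul_one]
    rw [F0_shift, F1_shift, F2_shift, ← hs, ← hp]
    have hF2 : F2 x₁ 1 x₂ 1 = (x₁ - x₂) ^ 2 := by simp [F2]
    rw [hF2]
    refine ⟨((x₁ - x₂) ^ 2)⁻¹, inv_ne_zero hD, ?_, ?_, ?_⟩
    · field_simp; ring
    · field_simp; ring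
    · field_simp

/-- The Kummer system of a Weierstrass curve, with x-coordinate `ξ = x - e`. -/
noncomputable def kumSys (W : WeierstrassCurve.Affine K) (e : K) : KumSys W.Point K where
  b₂ := W.b₂ + 12 * e
  b₄ := W.b₄ + e * W.b₂ + 6 * e ^ 2
  b₆ := W.b₆ + 2 * e * W.b₄ + e ^ 2 * W.b₂ + 4 * e ^ 3
  b₈ := W.b₈ + 3 * e * W.b₆ + 3 * e ^ 2 * W.b₄ + e ^ 3 * W.b₂ + 3 * e ^ 4
  X P := P.xRep 0 - e * P.xRep 1
  Z P := P.xRep 1
  X_zero := by simp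
  Z_zero := by simp
  Z_of_ne P hP := by
    cases P with
    | zero => exact absurd rfl hP
    | some x y h => simp
  rel := kummer_rel W e

@[simp] lemma kumSys_X_some (W : WeierstrassCurve.Affine K) (e : K) {x y : K}
    (h : W.Nonsingular x y) : (kumSys W e).X (Point.some x y h) = x - e := by
  simp [kumSys]

@[simp] lemma kumSys_Z_some (W : WeierstrassCurve.Affine K) (e : K) {x y : K}
    (h : W.Nonsingular x y) : (kumSys W e).Z (Point.some x y h) = 1 := by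
  simp [kumSys]

end FAUnram
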